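import Fermat.Agent.DiophantineInequality.Gaussian

/-!
# Where Waring's sum is large

If `|f (x)| ≥ ε P` then `x` is within `O (P ^ -k)` of a fraction with bounded denominator; hence,
`a/b` being irrational, `f (a α)` and `f (b α)` are both that large on a bounded range only for
`α = O (P ^ -k)`. Near `0` one has `f (x) = O (P (1 + |x| P ^ k) ^ (-1/k))`.
-/

set_option autoImplicit false

noncomputable section

namespace FA.DiophantineInequality

open Finset Filter Topology FA.ThreePrimes FA.WaringAsymptotic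
open scoped Real

/-- **The approximation at a fraction**, with the two bounds for the main term. -/
theorem exists_waringSum_le {k : ℕ} (hk : 2 ≤ k) : ∃ C e : ℝ, 1 ≤ C ∧ 0 < e ∧
    ∀ P q r : ℕ, 1 ≤ P → r ∈ unitResidues q → ∀ β : ℝ, |β| ≤ 1 / 2 →
      ‖waringSum k P ((r : ℝ) / q + β)‖ ≤
          C * (q : ℝ) ^ (-e) * P + 8 * q * (1 + 2 * π * |β| * (P : ℝ) ^ k) ∧
        (β ≠ 0 → ‖waringSum k P ((r : ℝ) / q + β)‖ ≤
          3 * C * (|β| ^ (-(1 / (k : ℝ)))) + 8 * q * (1 + 2 * π * |β| * (P : ℝ) ^ k)) := by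
  have hk0 : (0 : ℝ) < k := by exact_mod_cast (show 0 < k by omega)
  obtain ⟨e, he⟩ : ∃ e : ℝ, e = min (1 / (k : ℝ)) (2 / 5) := ⟨_, rfl⟩
  have he0 : 0 < e := he ▸ lt_min (by positivity) (by norm_num)
  have hek : (k : ℝ) * e ≤ 1 := by
    refine (mul_le_mul_of_nonneg_left (he ▸ min_le_left _ _) hk0.le).trans (le_of_eq ?_)
    field_simp
  have hk1 : 1 / (k : ℝ) ≤ 1 := by
    rw [div_le_one hk0]; exact_mod_cast (show 1 ≤ k by omega)
  obtain ⟨C, hC, hd⟩ := exists_densityFactor_le hk he0.le hek (he ▸ min_le_right _ _)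
  refine ⟨C, e, hC, he0, fun P q r hP hr β hβ => ?_⟩
  have hq : 0 < q := by
    rw [unitResidues, mem_filter, mem_range] at hr
    omega
  have hD := hd q r hr
  have hq1 : (q : ℝ) ^ (-e) ≤ 1 :=
    Real.rpow_le_one_of_one_le_of_nonpos (by exact_mod_cast hq) (neg_nonpos.2 he0.le)
  have happ := norm_waringSum_sub_le (show 1 ≤ k by omega) (Nat.one_le_pow k P hP) hq (r : ℤ) β
  rw [WaringGoldbach.rootFloor_pow (by omega) hP, Int.cast_natCast, Nat.cast_pow] at happ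
  have hsplit := norm_le_norm_add_norm_sub' (waringSum k P ((r : ℝ) / q + β))
    (densityFactor k q r * weightSum (1 / (k : ℝ)) (P ^ k) β)
  rw [norm_mul] at hsplit
  refine ⟨hsplit.trans (add_le_add ?_ happ), fun hne => hsplit.trans (add_le_add ?_ happ)⟩
  · refine mul_le_mul hD ((norm_weightSum_le (by positivity) hk1 _ β).trans (le_of_eq ?_))
      (norm_nonneg _) (by positivity)
    push_cast
    rw [← Real.rpow_natCast, ← Real.rpow_mul (Nat.cast_nonneg P), mul_one_div_cancel hk0.ne',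
      Real.rpow_one]
  · have h0 : 0 < nearDist β := by rw [nearDist_eq_abs hβ]; exact abs_pos.2 hne
    have h1 := norm_weightSum_le_inv (c := 1 / (k : ℝ)) (by positivity) hk1 (P ^ k) h0
    rw [nearDist_eq_abs hβ] at h1
    refine (mul_le_mul (hD.trans (mul_le_of_le_one_right (by linarith) hq1)) h1 (norm_nonneg _)
      (by linarith)).trans (le_of_eq ?_)
    ring

theorem tendsto_rpow_div_natPow {k : ℕ} (hk : 2 ≤ k) :
    Tendsto (fun P : ℕ => (P : ℝ) ^ (1 / 10 : ℝ) / (P : ℝ) ^ k) atTop (𝓝 0) := by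
  refine ((tendsto_rpow_neg_atTop (show (0 : ℝ) < k - 1 / 10 by
    have : (2 : ℝ) ≤ k := by exact_mod_cast hk
    linarith)).comp tendsto_natCast_atTop_atTop).congr' ?_
  filter_upwards [eventually_ge_atTop 1] with P hP
  have h0 : (0 : ℝ) < P := Nat.cast_pos.2 hP
  rw [Function.comp_apply, neg_sub, Real.rpow_sub h0, Real.rpow_natCast]

theorem tendsto_natCast_rpow_neg {e : ℝ} (he : 0 < e) :
    Tendsto (fun P : ℕ => (P : ℝ) ^ (-e)) atTop (𝓝 0) :=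
  (tendsto_rpow_neg_atTop he).comp tendsto_natCast_atTop_atTop

/-- **Large values come from fractions with bounded denominators.** -/
theorem exists_inverse {k : ℕ} (hk : 2 ≤ k) {ε : ℝ} (hε : 0 < ε) : ∃ (Q : ℕ) (B : ℝ), 0 < B ∧
    ∀ᶠ P : ℕ in atTop, ∀ x : ℝ, ε * P ≤ ‖waringSum k P x‖ →
      ∃ q : ℕ, 1 ≤ q ∧ q ≤ Q ∧ ∃ a : ℤ, |x - a / q| ≤ B / (P : ℝ) ^ k := by
  have hk0 : (0 : ℝ) < k := by exact_mod_cast (show 0 < k by omega)
  obtain ⟨C, e, hC, he, hf⟩ := exists_waringSum_le hk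
  obtain ⟨C₁, hC₁, hsup⟩ := exists_minor_sup hk
  obtain ⟨Q, hQ⟩ : ∃ Q, Q = ⌈(2 * C / ε) ^ (1 / e)⌉₊ := ⟨_, rfl⟩
  obtain ⟨B, hB⟩ : ∃ B, B = (6 * C / ε) ^ k := ⟨_, rfl⟩
  have hB0 : 0 < B := hB ▸ by positivity
  refine ⟨Q, B, hB0, ?_⟩
  filter_upwards [eventually_ge_atTop 1,
    ((tendsto_natCast_rpow_neg (weylSaving_pos k)).const_mul C₁).eventually (eventually_lt_nhds
      (show C₁ * 0 < ε by rw [mul_zero]; exact hε)),
    ((tendsto_natCast_rpow_neg (show (0 : ℝ) < 8 / 10 by norm_num)).const_mul 72).eventually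
      (eventually_lt_nhds (show (72 : ℝ) * 0 < ε / 2 by linarith)),
    (tendsto_rpow_div_natPow hk).eventually (eventually_le_nhds (show (0 : ℝ) < 1 / 2 by norm_num))]
    with P hP h1 h2 h3 x hx
  have hPr : (1 : ℝ) ≤ P := by exact_mod_cast hP
  have hP0 : (0 : ℝ) < P := by linarith
  obtain ⟨R, hR⟩ : ∃ R, R = (P : ℝ) ^ (1 / 10 : ℝ) := ⟨_, rfl⟩
  have hR1 : 1 ≤ R := hR ▸ Real.one_le_rpow hPr (by norm_num)
  have hPk : (0 : ℝ) < (P : ℝ) ^ k := pow_pos hP0 k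
  obtain ⟨z, hz, hnear⟩ : ∃ z ∈ arcCentres ⌊R⌋₊, nearDist (x - centre z) ≤ R / (P : ℝ) ^ k := by
    by_contra hno
    push Not at hno
    have h := hsup (P ^ k) P x hP le_rfl (Nat.pow_lt_pow_left P.lt_succ_self (by omega))
      fun z hz => by
        push_cast
        rw [← hR]
        exact hno z (hR ▸ hz)
    rw [show (1 : ℝ) - weylSaving k = -weylSaving k + 1 by ring, Real.rpow_add_one hP0.ne',
      ← mul_assoc] at h
    have := mul_lt_mul_of_pos_right h1 hP0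
    linarith
  obtain ⟨q, r⟩ := z
  obtain ⟨⟨hq1, hqR⟩, hrq, hcop⟩ := mem_arcCentres.1 hz
  simp only at hq1 hqR hrq hcop
  have hru : r ∈ unitResidues q := mem_filter.2 ⟨mem_range.2 hrq, hcop⟩
  obtain ⟨j, hj⟩ : ∃ j, j = round (x - centre ⟨q, r⟩) := ⟨_, rfl⟩
  obtain ⟨β, hβ⟩ : ∃ β, β = x - centre ⟨q, r⟩ - j := ⟨_, rfl⟩
  rw [nearDist, ← hj, ← hβ] at hnear
  have hfx : waringSum k P x = waringSum k P ((r : ℝ) / q + β) := by
    rw [← waringSum_add_intCast k P ((r : ℝ) / q + β) j]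
    congr 1
    rw [hβ]
    simp only [centre]
    ring
  have hβ2 : |β| ≤ 1 / 2 := hnear.trans (hR ▸ h3)
  obtain ⟨hb1, hb2⟩ := hf P q r hP hru β hβ2
  rw [← hfx] at hb1 hb2
  have herr : 8 * (q : ℝ) * (1 + 2 * π * |β| * (P : ℝ) ^ k) ≤ ε / 2 * P := by
    have hqR' : (q : ℝ) ≤ R := (Nat.cast_le.2 hqR).trans (Nat.floor_le (by linarith))
    have h4 : |β| * (P : ℝ) ^ k ≤ R := (le_div_iff₀ hPk).1 hnear
    have h5 : 1 + 2 * π * |β| * (P : ℝ) ^ k ≤ 9 * R := by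
      have := mul_le_mul_of_nonneg_left h4 (show (0 : ℝ) ≤ 2 * π by positivity)
      have := mul_le_mul_of_nonneg_right Real.pi_le_four (show (0 : ℝ) ≤ R by linarith)
      linarith
    refine (mul_le_mul (mul_le_mul_of_nonneg_left hqR' (by norm_num)) h5 (by positivity)
      (by positivity)).trans ?_
    have h6 : R * R = (P : ℝ) ^ (-(8 / 10) : ℝ) * P := by
      rw [hR, ← Real.rpow_add hP0, ← Real.rpow_add_one hP0.ne']
      norm_num
    have := mul_lt_mul_of_pos_right h2 hP0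
    calc 8 * R * (9 * R) = 72 * (R * R) := by ring
      _ ≤ _ := by rw [h6, ← mul_assoc]; linarith
  have hq0 : (0 : ℝ) < q := Nat.cast_pos.2 hq1
  refine ⟨q, hq1, hQ ▸ Nat.cast_le.1 ((?_ : (q : ℝ) ≤ (2 * C / ε) ^ (1 / e)).trans (Nat.le_ceil _)),
    (r : ℤ) + j * q, ?_⟩
  · have h7 : ε / 2 ≤ C * (q : ℝ) ^ (-e) := le_of_mul_le_mul_right (by linarith) hP0
    rw [Real.rpow_neg hq0.le, ← div_eq_mul_inv, le_div_iff₀ (by positivity)] at h7
    rw [one_div e, Real.le_rpow_inv_iff_of_pos hq0.le (by positivity) he, le_div_iff₀ hε]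
    linarith
  · rw [show x - (((r : ℤ) + j * q : ℤ) : ℝ) / q = β by
      rw [hβ]
      simp only [centre]
      push_cast
      field_simp
      ring]
    by_cases hne : β = 0
    · rw [hne, abs_zero]
      positivity
    have habs : 0 < |β| := abs_pos.2 hne
    have h7 := (hb2 hne)
    have h8 : ε / 2 * P ≤ 3 * C * |β| ^ (-(1 / (k : ℝ))) := by linarith
    rw [Real.rpow_neg habs.le, ← div_eq_mul_inv, le_div_iff₀ (by positivity)] at h8
    have h9 : |β| ^ (1 / (k : ℝ)) ≤ 6 * C / ε / P := by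
      rw [div_div, le_div_iff₀ (by positivity)]
      linarith
    have h10 := pow_le_pow_left₀ (by positivity) h9 k
    rw [← Real.rpow_natCast (|β| ^ (1 / (k : ℝ))) k, ← Real.rpow_mul habs.le,
      one_div_mul_cancel hk0.ne', Real.rpow_one, div_pow, ← hB] at h10
    exact h10

/-- **Two sums with irrational ratio are large together only near `0`.** -/
theorem exists_pair_small {k : ℕ} (hk : 2 ≤ k) {u v : ℝ} (hv : v ≠ 0) (hirr : Irrational (u / v))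
    {ε : ℝ} (hε : 0 < ε) (T : ℝ) : ∃ C : ℝ, ∀ᶠ P : ℕ in atTop, ∀ α : ℝ, |α| ≤ T →
      ε * P ≤ ‖waringSum k P (u * α)‖ → ε * P ≤ ‖waringSum k P (v * α)‖ →
        |α| ≤ C / (P : ℝ) ^ k := by
  have hu : u ≠ 0 := fun h => by simp [h] at hirr
  obtain ⟨Q, B, hB, hinv⟩ := exists_inverse hk hε
  obtain ⟨K, hK⟩ : ∃ K, K = B / |u| + B / |v| := ⟨_, rfl⟩
  have hKu : B / |u| ≤ K := hK ▸ le_add_of_nonneg_right (by positivity)
  have hKv : B / |v| ≤ K := hK ▸ le_add_of_nonneg_left (by positivity)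
  obtain ⟨A, hA⟩ : ∃ A : ℕ, A = ⌈(Q : ℝ) * ((|u| + |v|) * |T| + B)⌉₊ := ⟨_, rfl⟩
  refine ⟨K, ?_⟩
  obtain ⟨S, hS⟩ : ∃ S, S = (Icc 1 Q ×ˢ Icc (-(A : ℤ)) A) ×ˢ (Icc 1 Q ×ˢ Icc (-(A : ℤ)) A) :=
    ⟨_, rfl⟩
  have hgap : ∀ᶠ P : ℕ in atTop, ∀ p ∈ S, p.1.2 ≠ 0 → p.2.2 ≠ 0 →
      K / (P : ℝ) ^ k < |(p.1.2 : ℝ) / (p.1.1 * u) - p.2.2 / (p.2.1 * v)| := by
    rw [eventually_all_finset]
    intro p hp
    by_cases h0 : p.1.2 = 0 ∨ p.2.2 = 0
    · exact Eventually.of_forall fun P h1 h2 => (h0.elim h1 h2).elim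
    rw [not_or] at h0
    simp only [hS, mem_product, mem_Icc] at hp
    have hq₁ : (p.1.1 : ℝ) ≠ 0 := Nat.cast_ne_zero.2 (by omega)
    have hq₂ : (p.2.1 : ℝ) ≠ 0 := Nat.cast_ne_zero.2 (by omega)
    have hne : 0 < |(p.1.2 : ℝ) / (p.1.1 * u) - p.2.2 / (p.2.1 * v)| := by
      refine abs_pos.2 (sub_ne_zero.2 fun heq => hirr ⟨((p.1.2 * (p.2.1 : ℤ) : ℤ) : ℚ) /
        (((p.1.1 : ℤ) * p.2.2 : ℤ) : ℚ), ?_⟩)
      have h2 : (p.2.2 : ℝ) ≠ 0 := Int.cast_ne_zero.2 h0.2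
      rw [div_eq_div_iff (mul_ne_zero hq₁ hu) (mul_ne_zero hq₂ hv)] at heq
      push_cast
      rw [div_eq_div_iff (mul_ne_zero hq₁ h2) hv]
      linarith
    have hlim : Tendsto (fun P : ℕ => K / (P : ℝ) ^ k) atTop (𝓝 0) :=
      tendsto_const_nhds.div_atTop ((tendsto_pow_atTop (by omega)).comp tendsto_natCast_atTop_atTop)
    exact (hlim.eventually (eventually_lt_nhds hne)).mono fun P hP _ _ => hP
  filter_upwards [hinv, hgap, eventually_ge_atTop 1] with P hP hgapP hP1 α hα h₁ h₂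
  have hPk : (1 : ℝ) ≤ (P : ℝ) ^ k := one_le_pow₀ (by exact_mod_cast hP1)
  obtain ⟨q₁, hq₁, hq₁Q, a₁, ha₁⟩ := hP _ h₁
  obtain ⟨q₂, hq₂, hq₂Q, a₂, ha₂⟩ := hP _ h₂
  have hmem : ∀ (w : ℝ) (q : ℕ) (a : ℤ), |w| ≤ |u| + |v| → 1 ≤ q → q ≤ Q →
      |w * α - a / q| ≤ B / (P : ℝ) ^ k → a ∈ Icc (-(A : ℤ)) A := by
    intro w q a hw hq hqQ ha
    have hq0 : (0 : ℝ) < q := Nat.cast_pos.2 hq
    have h : |(a : ℝ) / q| ≤ (|u| + |v|) * |T| + B := by
      have h1 := (abs_sub_abs_le_abs_sub ((a : ℝ) / q) (w * α)).trans (le_of_eq (abs_sub_comm _ _))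
      have h2 : B / (P : ℝ) ^ k ≤ B := div_le_self hB.le hPk
      have h3 : |w * α| ≤ (|u| + |v|) * |T| := by
        rw [abs_mul]
        exact mul_le_mul hw (hα.trans (le_abs_self T)) (abs_nonneg _) (by positivity)
      linarith
    rw [abs_div, Nat.abs_cast, div_le_iff₀ hq0] at h
    have h' : |(a : ℝ)| ≤ (A : ℝ) := by
      refine h.trans (le_trans ?_ (hA ▸ Nat.le_ceil _))
      rw [mul_comm (Q : ℝ)]
      exact mul_le_mul_of_nonneg_left (Nat.cast_le.2 hqQ) (by positivity)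
    rw [← Int.cast_abs, ← Int.cast_natCast, Int.cast_le, abs_le] at h'
    exact mem_Icc.2 h'
  have hclose : ∀ (w : ℝ) (q : ℕ) (a : ℤ), w ≠ 0 → 1 ≤ q →
      |w * α - a / q| ≤ B / (P : ℝ) ^ k → |α - a / (q * w)| ≤ B / |w| / (P : ℝ) ^ k := by
    intro w q a hw hq ha
    have hq0 : (q : ℝ) ≠ 0 := Nat.cast_ne_zero.2 (by omega)
    rw [show α - a / ((q : ℝ) * w) = (w * α - a / q) / w by field_simp, abs_div,
      div_right_comm]
    exact div_le_div_of_nonneg_right ha (abs_nonneg w)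
  have hcu := hclose u q₁ a₁ hu hq₁ ha₁
  have hcv := hclose v q₂ a₂ hv hq₂ ha₂
  by_cases h1 : a₁ = 0
  · rw [h1, Int.cast_zero, zero_div, sub_zero] at hcu
    exact hcu.trans (div_le_div_of_nonneg_right hKu (by positivity))
  by_cases h2 : a₂ = 0
  · rw [h2, Int.cast_zero, zero_div, sub_zero] at hcv
    exact hcv.trans (div_le_div_of_nonneg_right hKv (by positivity))
  exfalso
  have hlt := hgapP ((q₁, a₁), (q₂, a₂)) (hS ▸ mem_product.2
    ⟨mem_product.2 ⟨mem_Icc.2 ⟨hq₁, hq₁Q⟩, hmem u q₁ a₁ (by linarith [abs_nonneg v]) hq₁ hq₁Q ha₁⟩,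
      mem_product.2 ⟨mem_Icc.2 ⟨hq₂, hq₂Q⟩,
        hmem v q₂ a₂ (by linarith [abs_nonneg u]) hq₂ hq₂Q ha₂⟩⟩) h1 h2
  have h3 := abs_sub_le ((a₁ : ℝ) / (q₁ * u)) α (a₂ / (q₂ * v))
  rw [abs_sub_comm _ α] at h3
  dsimp only at hlt
  rw [hK, add_div] at hlt
  linarith

/-- **Decay near `0`**: `|f (x)| ≤ C P (1 + |x| P ^ k) ^ (-1/k)`. -/
theorem exists_decay {k : ℕ} (hk : 2 ≤ k) : ∃ C : ℝ, 1 ≤ C ∧ ∀ᶠ P : ℕ in atTop, ∀ x : ℝ,
    |x| ≤ (P : ℝ) ^ (1 / 10 : ℝ) / (P : ℝ) ^ k → 1 ≤ |x| * (P : ℝ) ^ k →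
      ‖waringSum k P x‖ ≤ C * P * (|x| * (P : ℝ) ^ k) ^ (-(1 / (k : ℝ))) := by
  have hk0 : (0 : ℝ) < k := by exact_mod_cast (show 0 < k by omega)
  have hk2 : (2 : ℝ) ≤ k := by exact_mod_cast hk
  obtain ⟨C, e, hC, -, hf⟩ := exists_waringSum_le hk
  refine ⟨3 * C + 72, by linarith, ?_⟩
  filter_upwards [eventually_ge_atTop 1,
    (tendsto_rpow_div_natPow hk).eventually (eventually_le_nhds (show (0 : ℝ) < 1 / 2 by norm_num))]
    with P hP hhalf x hxR hx1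
  have hP0 : (0 : ℝ) < P := Nat.cast_pos.2 hP
  have hPr : (1 : ℝ) ≤ P := by exact_mod_cast hP
  obtain ⟨y, hy⟩ : ∃ y, y = |x| * (P : ℝ) ^ k := ⟨_, rfl⟩
  rw [← hy] at hx1 ⊢
  have hx0 : x ≠ 0 := fun h => by rw [h, abs_zero, zero_mul] at hy; linarith
  have h := (hf P 1 0 hP (by simp [unitResidues]) x (hxR.trans hhalf)).2 hx0
  simp only [Nat.cast_zero, Nat.cast_one, zero_div, zero_add, mul_one] at h
  have hpow : |x| ^ (-(1 / (k : ℝ))) = P * y ^ (-(1 / (k : ℝ))) := by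
    have : |x| = y * ((P : ℝ) ^ k)⁻¹ := by rw [hy]; field_simp
    rw [this, Real.mul_rpow (by linarith) (by positivity), Real.inv_rpow (by positivity),
      ← Real.rpow_natCast, ← Real.rpow_mul hP0.le, ← Real.rpow_neg hP0.le,
      show -((k : ℝ) * -(1 / (k : ℝ))) = 1 by field_simp, Real.rpow_one]
    ring
  have hyR : y ≤ (P : ℝ) ^ (1 / 10 : ℝ) := by
    rw [hy]
    exact (le_div_iff₀ (by positivity)).1 hxR
  have herr : 8 * (1 + 2 * π * |x| * (P : ℝ) ^ k) ≤ 72 * (P * y ^ (-(1 / (k : ℝ)))) := by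
    have h9 : 1 + 2 * π * |x| * (P : ℝ) ^ k ≤ 9 * y := by
      rw [mul_assoc, ← hy]
      have := mul_le_mul_of_nonneg_right Real.pi_le_four (show (0 : ℝ) ≤ y by linarith)
      linarith
    have h10 : y * y ^ (1 / (k : ℝ)) ≤ P := by
      refine (mul_le_mul hyR (Real.rpow_le_rpow (by linarith) hyR (by positivity)) (by positivity)
        (by positivity)).trans ?_
      rw [← Real.rpow_mul hP0.le, ← Real.rpow_add hP0]
      refine Real.rpow_le_self_of_one_le hPr ?_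
      have : 1 / (k : ℝ) ≤ 1 / 2 := one_div_le_one_div_of_le two_pos hk2
      linarith
    rw [Real.rpow_neg (by linarith), ← div_eq_mul_inv]
    have h11 : y ≤ (P : ℝ) / y ^ (1 / (k : ℝ)) := by
      rw [le_div_iff₀ (by positivity)]
      exact h10
    linarith
  rw [hpow] at h
  refine h.trans (le_trans (add_le_add le_rfl herr) (le_of_eq ?_))
  ring

end FA.DiophantineInequality
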