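import Fermat.Agent.WaringGoldbach.Moment
import Mathlib.Analysis.SpecialFunctions.Gaussian.FourierTransform

/-!
# Counting with a Gaussian weight

`∑ exp (- π (∑ lᵢ xᵢ ^ k - μ)² / η²)` over the box is `η` times the integral over the real line of
`exp (- π η² α²) ∏ f (lᵢ α) e (- μ α)`, `f` Waring's sum; and the `2 t`-th moment of `f (l α)` for
that kernel is `O (P ^ (2 t - k))` for `2 t > k (k + 1)`, by the diagonal.
-/

set_option autoImplicit false

noncomputable section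

namespace FA.DiophantineInequality

open Finset MeasureTheory FA.ThreePrimes FA.WaringAsymptotic ComplexConjugate
open scoped Real

/-- `exp (- π u² / η²)`. -/
def gaussW (η u : ℝ) : ℝ := Real.exp (-π * u ^ 2 / η ^ 2)

theorem gaussW_pos (η u : ℝ) : 0 < gaussW η u := Real.exp_pos _

/-- `exp (- π η² α²)`. -/
def gaussK (η α : ℝ) : ℝ := Real.exp (-(π * η ^ 2) * α ^ 2)

theorem gaussK_pos (η α : ℝ) : 0 < gaussK η α := Real.exp_pos _

theorem gaussK_le_one (η α : ℝ) : gaussK η α ≤ 1 :=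
  Real.exp_le_one_iff.2
    (mul_nonpos_of_nonpos_of_nonneg (neg_nonpos.2 (by positivity)) (sq_nonneg α))

theorem integrable_gaussK {η : ℝ} (hη : 0 < η) : Integrable (gaussK η) :=
  integrable_exp_neg_mul_sq (by positivity)

theorem continuous_eAdd : Continuous eAdd := by
  unfold eAdd
  fun_prop

theorem continuous_waringSum (k P : ℕ) : Continuous (waringSum k P) := by
  unfold waringSum
  exact continuous_finsetSum _ fun n _ => continuous_eAdd.comp (by fun_prop)

theorem waringSum_add_intCast (k P : ℕ) (x : ℝ) (j : ℤ) :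
    waringSum k P (x + j) = waringSum k P x := by
  refine sum_congr rfl fun n _ => ?_
  rw [← eAdd_add_intCast (x * (n : ℝ) ^ k) (j * (n : ℤ) ^ k)]
  push_cast
  ring_nf

theorem integrable_kernel_mul {η : ℝ} (hη : 0 < η) {F : ℝ → ℂ} (hF : Continuous F) {B : ℝ}
    (hB : ∀ α, ‖F α‖ ≤ B) : Integrable fun α => (gaussK η α : ℂ) * F α :=
  (integrable_gaussK hη).ofReal.mul_bdd hF.aestronglyMeasurable (ae_of_all _ hB)

theorem integrable_kernel_mul_real {η : ℝ} (hη : 0 < η) {F : ℝ → ℝ} (hF : Continuous F) {B : ℝ}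
    (hB : ∀ α, ‖F α‖ ≤ B) : Integrable fun α => gaussK η α * F α :=
  (integrable_gaussK hη).mul_bdd hF.aestronglyMeasurable (ae_of_all _ hB)

theorem integrable_kernel_eAdd {η : ℝ} (hη : 0 < η) (u : ℝ) :
    Integrable fun α : ℝ => (gaussK η α : ℂ) * eAdd (u * α) :=
  integrable_kernel_mul hη (F := fun α => eAdd (u * α))
    (continuous_eAdd.comp (continuous_const.mul continuous_id)) fun _ => (norm_eAdd _).le

/-- **The Fourier transform of the Gaussian.** -/
theorem integral_gaussK_mul_eAdd {η : ℝ} (hη : 0 < η) (u : ℝ) :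
    ∫ α : ℝ, (gaussK η α : ℂ) * eAdd (u * α) = ((gaussW η u / η : ℝ) : ℂ) := by
  have hb : 0 < ((π * η ^ 2 : ℝ) : ℂ).re := by
    rw [Complex.ofReal_re]
    positivity
  have h := GaussianFourier.integral_cexp_neg_mul_sq_add_real_mul_I hb (-u / η ^ 2)
  have e : ∀ α : ℝ, (gaussK η α : ℂ) * eAdd (u * α) = (gaussW η u : ℂ) *
      Complex.exp
        (-((π * η ^ 2 : ℝ) : ℂ) * ((α : ℂ) + ((-u / η ^ 2 : ℝ) : ℂ) * Complex.I) ^ 2) := by
    intro α
    rw [gaussK, gaussW, eAdd, Complex.ofReal_exp, Complex.ofReal_exp, ← Complex.exp_add,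
      ← Complex.exp_add]
    congr 1
    have hη' : (η : ℂ) ≠ 0 := Complex.ofReal_ne_zero.2 hη.ne'
    push_cast
    field_simp
    ring_nf
    simp only [Complex.I_sq]
    ring
  rw [integral_congr_ae (ae_of_all _ e), integral_const_mul, h, Complex.ofReal_div,
    div_eq_mul_one_div (gaussW η u : ℂ)]
  congr 1
  rw [show (π : ℂ) / ((π * η ^ 2 : ℝ) : ℂ) = ((1 / η ^ 2 : ℝ) : ℂ) by
    push_cast; field_simp, show (1 / 2 : ℂ) = ((1 / 2 : ℝ) : ℂ) by push_cast; ring,
    ← Complex.ofReal_cpow (by positivity), ← Real.sqrt_eq_rpow,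
    Real.sqrt_div' _ (sq_nonneg η), Real.sqrt_one, Real.sqrt_sq hη.le]
  push_cast
  ring

variable {s : ℕ}

/-- The tuples in the box. -/
def box (s P : ℕ) : Finset (Fin s → ℕ) := Fintype.piFinset fun _ : Fin s => Icc 1 P

/-- `∑ lᵢ xᵢ ^ k`. -/
def diagForm (k : ℕ) (l : Fin s → ℝ) (x : Fin s → ℕ) : ℝ := ∑ i, l i * (x i : ℝ) ^ k

/-- `∏ f (lᵢ α)`. -/
def prodSum (k P : ℕ) (l : Fin s → ℝ) (α : ℝ) : ℂ := ∏ i, waringSum k P (l i * α)

theorem continuous_prodSum (k P : ℕ) (l : Fin s → ℝ) : Continuous (prodSum k P l) := by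
  unfold prodSum
  exact continuous_finsetProd _ fun i _ => (continuous_waringSum k P).comp (by fun_prop)

theorem norm_prodSum_le (k P : ℕ) (l : Fin s → ℝ) (α : ℝ) : ‖prodSum k P l α‖ ≤ (P : ℝ) ^ s := by
  rw [prodSum, norm_prod]
  refine (prod_le_prod (fun i _ => norm_nonneg _) fun i _ => norm_waringSum_le k P _).trans ?_
  simp

theorem eAdd_sum {ι : Type*} (S : Finset ι) (g : ι → ℝ) :
    eAdd (∑ i ∈ S, g i) = ∏ i ∈ S, eAdd (g i) := by
  classical
  induction S using Finset.induction with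
  | empty => simp
  | insert a S ha ih => rw [prod_insert ha, sum_insert ha, eAdd_add, ih]

theorem prodSum_eq (k P : ℕ) (l : Fin s → ℝ) (α : ℝ) :
    prodSum k P l α = ∑ x ∈ box s P, eAdd (diagForm k l x * α) := by
  rw [prodSum, box]
  simp only [waringSum]
  rw [prod_univ_sum]
  refine sum_congr rfl fun x _ => ?_
  rw [diagForm, sum_mul, eAdd_sum]
  exact prod_congr rfl fun i _ => by ring_nf

/-- The weighted count. -/
def weightedCount (k P : ℕ) (l : Fin s → ℝ) (η μ : ℝ) : ℝ :=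
  ∑ x ∈ box s P, gaussW η (diagForm k l x - μ)

/-- **The count as an integral.** -/
theorem weightedCount_div_eq (k P : ℕ) (l : Fin s → ℝ) {η : ℝ} (hη : 0 < η) (μ : ℝ) :
    ((weightedCount k P l η μ / η : ℝ) : ℂ) =
      ∫ α : ℝ, (gaussK η α : ℂ) * (prodSum k P l α * eAdd (-(μ * α))) := by
  have e : ∀ α : ℝ, (gaussK η α : ℂ) * (prodSum k P l α * eAdd (-(μ * α))) =
      ∑ x ∈ box s P, (gaussK η α : ℂ) * eAdd ((diagForm k l x - μ) * α) := fun α => by
    rw [prodSum_eq, sum_mul, mul_sum]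
    refine sum_congr rfl fun x _ => ?_
    rw [← eAdd_add]
    ring_nf
  rw [integral_congr_ae (ae_of_all _ e), integral_finsetSum _ fun x _ =>
    integrable_kernel_eAdd hη _]
  simp only [integral_gaussK_mul_eAdd hη]
  rw [weightedCount, sum_div, Complex.ofReal_sum]

/-- Pairs with a given difference are no more than the diagonal. -/
theorem card_shift_le {α : Type*} [DecidableEq α] (A : Finset α) (f : α → ℤ) (n : ℤ) :
    ((A ×ˢ A).filter fun z => f z.1 - f z.2 = n).card ≤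
      ((A ×ˢ A).filter fun z => f z.1 = f z.2).card := by
  obtain ⟨r, hr⟩ : ∃ r : ℤ → ℕ, r = fun m => (A.filter fun a => f a = m).card := ⟨_, rfl⟩
  have hcount : ∀ d : ℤ, ((A ×ˢ A).filter fun z => f z.1 - f z.2 = d).card =
      ∑ m ∈ A.image f, r m * r (m - d) := fun d => by
    rw [card_eq_sum_card_fiberwise (f := fun z => f z.1) (t := A.image f) (fun z hz =>
      mem_image_of_mem f (mem_product.1 (mem_filter.1 hz).1).1)]
    refine sum_congr rfl fun m _ => ?_
    rw [hr, ← card_product]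
    congr 1
    ext z
    simp only [mem_filter, mem_product]
    constructor
    · rintro ⟨⟨⟨h1, h2⟩, h3⟩, h4⟩
      exact ⟨⟨h1, h4⟩, h2, by omega⟩
    · rintro ⟨⟨h1, h4⟩, h2, h3⟩
      exact ⟨⟨⟨h1, h2⟩, by omega⟩, h4⟩
  rw [hcount n, filter_congr (q := fun z => f z.1 - f z.2 = 0) fun z _ => by omega, hcount 0]
  simp only [sub_zero]
  have hshift : ∑ m ∈ A.image f, r (m - n) * r (m - n) ≤ ∑ m ∈ A.image f, r m * r m := by
    rw [← sum_image (f := fun m => r m * r m) (g := fun m => m - n)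
      fun a _ b _ h => by simpa using h]
    refine le_trans (sum_le_sum_of_ne_zero fun m _ hm => mem_image.2 ?_) le_rfl
    have : r m ≠ 0 := fun h => hm (by rw [h, mul_zero])
    rw [hr] at this
    obtain ⟨a, ha⟩ := card_ne_zero.1 this
    exact ⟨a, (mem_filter.1 ha).1, (mem_filter.1 ha).2⟩
  have hsq : ∀ a b : ℕ, 2 * (a * b) ≤ a * a + b * b := fun a b => by
    zify
    nlinarith [sq_nonneg ((a : ℤ) - b)]
  have := sum_le_sum fun m (_ : m ∈ A.image f) => hsq (r m) (r (m - n))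
  rw [← mul_sum, sum_add_distrib] at this
  omega

theorem exists_sum_gaussW_int_le {η c : ℝ} (hη : 0 < η) (hc : c ≠ 0) :
    ∃ G : ℝ, 0 < G ∧ ∀ S : Finset ℤ, ∑ n ∈ S, gaussW η (c * n) ≤ G := by
  obtain ⟨a, ha⟩ : ∃ a, a = π * c ^ 2 / η ^ 2 := ⟨_, rfl⟩
  have ha0 : 0 < a := ha ▸ by positivity
  obtain ⟨r, hr⟩ : ∃ r, r = Real.exp (-a) := ⟨_, rfl⟩
  have hr0 : 0 ≤ r := hr ▸ (Real.exp_pos _).le
  have hgeo := summable_geometric_of_lt_one hr0 (hr ▸ Real.exp_lt_one_iff.2 (by linarith))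
  have hsum : Summable fun n : ℤ => r ^ n.natAbs :=
    Summable.of_nat_of_neg (by simpa using hgeo) (by simpa using hgeo)
  refine ⟨∑' n : ℤ, r ^ n.natAbs + 1,
    add_pos_of_nonneg_of_pos (tsum_nonneg fun n => by positivity) one_pos,
    fun S => le_trans (sum_le_sum fun n _ => ?_)
      ((hsum.sum_le_tsum S fun n _ => by positivity).trans
      (le_add_of_nonneg_right zero_le_one))⟩
  rw [gaussW, hr, ← Real.exp_nat_mul, Real.exp_le_exp,
    show -π * (c * (n : ℝ)) ^ 2 / η ^ 2 = -(a * (n : ℝ) ^ 2) by rw [ha]; ring]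
  have h : (n.natAbs : ℝ) ≤ (n : ℝ) ^ 2 := by
    rw [← sq_abs, ← Int.cast_abs, ← Nat.cast_natAbs]
    rcases Nat.eq_zero_or_pos n.natAbs with h | h
    · simp [h]
    · exact le_self_pow₀ (by exact_mod_cast h) two_ne_zero
  nlinarith

/-- **The moment on the real line.** -/
theorem exists_moment_le {k t : ℕ} (hk : 2 ≤ k) (ht : k * (k + 1) < 2 * t) {η c : ℝ} (hη : 0 < η)
    (hc : c ≠ 0) : ∃ C : ℝ, 0 < C ∧ ∀ P : ℕ, 1 ≤ P →
      ∫ α : ℝ, gaussK η α * ‖waringSum k P (c * α)‖ ^ (2 * t) ≤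
        C * (P : ℝ) ^ (2 * t - k) := by
  obtain ⟨C₀, hC₀, hdiag⟩ := WaringGoldbach.exists_powerDiagonal_le hk ht
  obtain ⟨G, hG, hGS⟩ := exists_sum_gaussW_int_le hη hc
  refine ⟨G * C₀ / η, by positivity, fun P hP => ?_⟩
  obtain ⟨A, hA⟩ : ∃ A, A = Korobov.box (Icc 1 P) t := ⟨_, rfl⟩
  obtain ⟨f, hf⟩ : ∃ f : (Fin t → ℕ) → ℤ, f = fun z => ((∑ i, z i ^ k : ℕ) : ℤ) := ⟨_, rfl⟩
  have e : ∀ α : ℝ, (((gaussK η α * ‖waringSum k P (c * α)‖ ^ (2 * t) : ℝ)) : ℂ) =
      ∑ z ∈ A ×ˢ A, (gaussK η α : ℂ) * eAdd (c * ((f z.1 - f z.2 : ℤ) : ℝ) * α) := fun α => by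
    have hw : waringSum k P (c * α) ^ t = ∑ z ∈ A, eAdd (((f z : ℤ) : ℝ) * (c * α)) := by
      have h := sum_eAdd_pow (Icc 1 P) (fun _ => 1) (fun n => n ^ k) t (c * α)
      simp only [one_mul, prod_const_one] at h
      rw [hA, hf, Korobov.box]
      simp only [Int.cast_natCast]
      rw [← h, waringSum]
      refine congrArg (· ^ t) (sum_congr rfl fun n _ => ?_)
      push_cast
      ring_nf
    rw [Complex.ofReal_mul, Complex.ofReal_pow, pow_mul, ← Complex.mul_conj', mul_pow, hw,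
      ← map_pow, hw, map_sum, sum_mul_sum, sum_product, mul_sum]
    refine sum_congr rfl fun z _ => ?_
    rw [mul_sum]
    refine sum_congr rfl fun w _ => ?_
    rw [conj_eAdd, ← eAdd_add]
    push_cast
    ring_nf
  have key : ∫ α : ℝ, gaussK η α * ‖waringSum k P (c * α)‖ ^ (2 * t) =
      (∑ z ∈ A ×ˢ A, gaussW η (c * ((f z.1 - f z.2 : ℤ) : ℝ))) / η := by
    apply Complex.ofReal_injective
    rw [← integral_complex_ofReal, integral_congr_ae (ae_of_all _ e),
      integral_finsetSum _ fun x _ => integrable_kernel_eAdd hη _]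
    simp only [integral_gaussK_mul_eAdd hη]
    rw [sum_div, Complex.ofReal_sum]
  have hd : ((powerDiagonal k t P : ℕ) : ℝ) ≤ C₀ * (P : ℝ) ^ (2 * t - k) := by
    refine (hdiag P hP).trans (le_of_eq ?_)
    rw [← Real.rpow_natCast _ (2 * t - k), Nat.cast_sub (by nlinarith)]
    push_cast
    rfl
  rw [key, div_mul_eq_mul_div]
  refine div_le_div_of_nonneg_right ?_ hη.le
  rw [← sum_fiberwise_of_maps_to (g := fun z => f z.1 - f z.2)
    (t := (A ×ˢ A).image fun z => f z.1 - f z.2) fun z hz => mem_image_of_mem _ hz]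
  refine (sum_le_sum (g := fun n : ℤ => (powerDiagonal k t P : ℝ) * gaussW η (c * n))
    fun n _ => ?_).trans ?_
  · rw [sum_congr rfl fun z hz => by rw [(mem_filter.1 hz).2], sum_const, nsmul_eq_mul]
    refine mul_le_mul_of_nonneg_right (Nat.cast_le.2 ?_) (gaussW_pos _ _).le
    refine (card_shift_le A f n).trans (le_of_eq ?_)
    rw [powerDiagonal, hA, hf]
    simp only [Nat.cast_inj]
  · rw [← mul_sum, mul_comm]
    calc _ ≤ G * (C₀ * (P : ℝ) ^ (2 * t - k)) :=
          mul_le_mul (hGS _) hd (Nat.cast_nonneg _) hG.le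
      _ = _ := by ring

end FA.DiophantineInequality
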