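import Fermat.Agent.DiophantineInequality.Approx
import Mathlib.Analysis.SpecialFunctions.ImproperIntegrals

/-!
# The theorem of Davenport and Heilbronn

Off `|α| ≤ δ`, `δ = P ^ (1/10) / (L P ^ k)`, the product `∏ f (lᵢ α)` against a Gaussian is
`o (P ^ (s - k))`; so the weighted count is `η J + o (P ^ (s - k))` with `J` independent of `η` and
`μ`, and the wide weight `η = c P ^ k` shows `J ≫ P ^ (s - k)`.
-/

set_option autoImplicit false

noncomputable section

namespace FA.DiophantineInequality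

open Finset MeasureTheory Filter Topology FA.ThreePrimes FA.WaringAsymptotic
open scoped Real

variable {k s : ℕ}

theorem prod_le_sum_pow {m : ℕ} (a : Fin s → ℝ) {P ε : ℝ} (hP : 0 ≤ P) (h0 : ∀ i, 0 ≤ a i)
    (hle : ∀ i, a i ≤ P) (j : Fin s) (hj : a j ≤ ε * P) (hε : 0 ≤ ε) (hm : m + 1 ≤ s) :
    ∏ i, a i ≤ ε * P ^ (s - m) * ∑ i, a i ^ m := by
  have : Nonempty (Fin s) := ⟨j⟩
  obtain ⟨i₀, -, hi₀⟩ := exists_max_image (univ : Finset (Fin s)) a univ_nonempty
  have h1 : ∏ i ∈ univ.erase j, a i ≤ a i₀ ^ (s - 1) := by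
    refine (prod_le_prod (fun i _ => h0 i) fun i _ => hi₀ i (mem_univ i)).trans (le_of_eq ?_)
    rw [prod_const, card_erase_of_mem (mem_univ j), card_univ, Fintype.card_fin]
  rw [← mul_prod_erase univ a (mem_univ j)]
  refine (mul_le_mul hj h1 (prod_nonneg fun i _ => h0 i) (by positivity)).trans ?_
  calc ε * P * a i₀ ^ (s - 1) = ε * P * (a i₀ ^ m * a i₀ ^ (s - 1 - m)) := by
        rw [← pow_add, Nat.add_sub_cancel' (by omega : m ≤ s - 1)]
    _ ≤ ε * P * ((∑ i, a i ^ m) * P ^ (s - 1 - m)) := by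
        refine mul_le_mul_of_nonneg_left (mul_le_mul (single_le_sum (f := fun i => a i ^ m)
          (fun i _ => pow_nonneg (h0 i) m) (mem_univ i₀)) (pow_le_pow_left₀ (h0 i₀) (hle i₀) _)
          (pow_nonneg (h0 i₀) _) (sum_nonneg fun i _ => pow_nonneg (h0 i) m)) (by positivity)
    _ = _ := by
        rw [show s - m = s - 1 - m + 1 by omega, pow_succ]
        ring

/-- The exponent of the moment. -/
def halfMoment (k : ℕ) : ℕ := (k * (k + 1) + 2) / 2

theorem lt_two_mul_halfMoment (k : ℕ) : k * (k + 1) < 2 * halfMoment k := by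
  have := Nat.div_add_mod (k * (k + 1) + 2) 2
  have := Nat.even_mul_succ_self k
  rw [Nat.even_iff] at this
  unfold halfMoment
  omega

theorem two_mul_halfMoment_le (k : ℕ) : 2 * halfMoment k ≤ k * (k + 1) + 2 :=
  Nat.mul_div_le _ _

theorem continuous_moment (k P t : ℕ) (l : Fin s → ℝ) :
    Continuous fun α : ℝ => ∑ i, ‖waringSum k P (l i * α)‖ ^ t :=
  continuous_finsetSum _ fun _ _ =>
    (((continuous_waringSum k P).comp (continuous_const.mul continuous_id)).norm).pow t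

theorem integrable_moment {η : ℝ} (hη : 0 < η) (k P t : ℕ) (l : Fin s → ℝ) :
    Integrable fun α : ℝ => gaussK η α * ∑ i, ‖waringSum k P (l i * α)‖ ^ t := by
  refine integrable_kernel_mul_real hη (continuous_moment k P t l)
    (B := ∑ _i : Fin s, (P : ℝ) ^ t) fun α => ?_
  rw [Real.norm_eq_abs, abs_of_nonneg (sum_nonneg fun i _ => by positivity)]
  exact sum_le_sum fun i _ => pow_le_pow_left₀ (norm_nonneg _) (norm_waringSum_le _ _ _) t

theorem exists_moment_sum_le (hk : 2 ≤ k) {l : Fin s → ℝ} (hl : ∀ i, l i ≠ 0) {η : ℝ}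
    (hη : 0 < η) : ∃ C : ℝ, 0 < C ∧ ∀ P : ℕ, 1 ≤ P →
      ∫ α : ℝ, gaussK η α * ∑ i, ‖waringSum k P (l i * α)‖ ^ (2 * halfMoment k) ≤
        C * (P : ℝ) ^ (2 * halfMoment k - k) := by
  choose C hC h using fun i => exists_moment_le hk (lt_two_mul_halfMoment k) hη (hl i)
  refine ⟨∑ i, C i + 1, add_pos_of_nonneg_of_pos (sum_nonneg fun i _ => (hC i).le) one_pos,
    fun P hP => ?_⟩
  simp only [mul_sum]
  rw [integral_finsetSum _ fun i _ => ?_]
  · refine (sum_le_sum fun i _ => h i P hP).trans ?_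
    rw [← sum_mul]
    exact mul_le_mul_of_nonneg_right (le_add_of_nonneg_right zero_le_one) (by positivity)
  · refine integrable_kernel_mul_real hη
      (((continuous_waringSum k P).comp (continuous_const.mul continuous_id)).norm.pow _)
      (B := (P : ℝ) ^ (2 * halfMoment k)) fun α => ?_
    rw [Real.norm_eq_abs, abs_of_nonneg (pow_nonneg (norm_nonneg _) _)]
    exact pow_le_pow_left₀ (norm_nonneg _) (norm_waringSum_le _ _ _) _

theorem exists_pow_sub_le (hk : 2 ≤ k) (hs : k * (k + 1) + 3 ≤ s) (P : ℕ) :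
    (P : ℝ) ^ (s - 2 * halfMoment k) * (P : ℝ) ^ (2 * halfMoment k - k) = (P : ℝ) ^ (s - k) := by
  have := lt_two_mul_halfMoment k
  have := two_mul_halfMoment_le k
  have : k ≤ k * (k + 1) := Nat.le_mul_of_pos_right k (by omega)
  rw [← pow_add]
  congr 1
  omega

/-- **The count under a fixed Gaussian, absolutely.** -/
theorem exists_absolute_le (hk : 2 ≤ k) {l : Fin s → ℝ} (hl : ∀ i, l i ≠ 0)
    (hs : k * (k + 1) + 3 ≤ s) {η : ℝ} (hη : 0 < η) : ∃ C : ℝ, 0 < C ∧ ∀ P : ℕ, 1 ≤ P →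
      ∫ α : ℝ, gaussK η α * ‖prodSum k P l α‖ ≤ C * (P : ℝ) ^ (s - k) := by
  have : Nonempty (Fin s) := ⟨⟨0, by omega⟩⟩
  obtain ⟨C, hC, h⟩ := exists_moment_sum_le hk hl hη
  refine ⟨C, hC, fun P hP => ?_⟩
  refine (integral_mono (g := fun α => (P : ℝ) ^ (s - 2 * halfMoment k) *
      (gaussK η α * ∑ i, ‖waringSum k P (l i * α)‖ ^ (2 * halfMoment k)))
    ?_ ((integrable_moment hη k P _ l).const_mul _) fun α => ?_).trans ?_
  · exact integrable_kernel_mul_real hη (continuous_prodSum k P l).norm fun α => by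
      rw [norm_norm]; exact norm_prodSum_le k P l α
  · dsimp only
    rw [mul_left_comm]
    refine mul_le_mul_of_nonneg_left ?_ (gaussK_pos η α).le
    rw [prodSum, norm_prod]
    exact (prod_le_sum_pow (fun i => ‖waringSum k P (l i * α)‖) (Nat.cast_nonneg P)
      (fun i => norm_nonneg _) (fun i => norm_waringSum_le _ _ _) (Classical.arbitrary _)
      (m := 2 * halfMoment k) (ε := 1) (by rw [one_mul]; exact norm_waringSum_le _ _ _) zero_le_one
      (by have := two_mul_halfMoment_le k; omega)).trans (le_of_eq (by ring))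
  · rw [integral_const_mul, ← exists_pow_sub_le hk hs P, mul_left_comm C]
    exact mul_le_mul_of_nonneg_left (h P hP) (by positivity)

/-- The width of the major interval. -/
def arcWidth (k : ℕ) (l : Fin s → ℝ) (P : ℕ) : ℝ :=
  (P : ℝ) ^ (1 / 10 : ℝ) / (P : ℝ) ^ k / (1 + ∑ i, |l i|)

theorem arcWidth_nonneg (k : ℕ) (l : Fin s → ℝ) (P : ℕ) : 0 ≤ arcWidth k l P := by
  have : 0 ≤ ∑ i, |l i| := sum_nonneg fun i _ => abs_nonneg _
  unfold arcWidth
  positivity

theorem eventually_le_arcWidth (k : ℕ) (l : Fin s → ℝ) (C : ℝ) :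
    ∀ᶠ P : ℕ in atTop, C / (P : ℝ) ^ k ≤ arcWidth k l P := by
  have hL : 0 < 1 + ∑ i, |l i| := by linarith [sum_nonneg fun i (_ : i ∈ univ) => abs_nonneg (l i)]
  filter_upwards [((tendsto_rpow_atTop (show (0 : ℝ) < 1 / 10 by norm_num)).comp
    tendsto_natCast_atTop_atTop).eventually (eventually_ge_atTop (C * (1 + ∑ i, |l i|))),
    eventually_ge_atTop 1] with P hP hP1
  rw [Function.comp_apply] at hP
  rw [arcWidth, le_div_iff₀ hL, div_mul_eq_mul_div]
  exact div_le_div_of_nonneg_right hP (by positivity)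

theorem integrableOn_major (k P : ℕ) (l : Fin s → ℝ) (a : ℝ) :
    IntegrableOn (prodSum k P l) (Set.Icc (-a) a) :=
  (continuous_prodSum k P l).integrableOn_Icc

/-- The major part, free of `η` and `μ`. -/
def majorIntegral (k P : ℕ) (l : Fin s → ℝ) : ℂ :=
  ∫ α in Set.Icc (-arcWidth k l P) (arcWidth k l P), prodSum k P l α

/-- **The rest of the line.** -/
theorem exists_off_zero (hk : 2 ≤ k) {l : Fin s → ℝ} (hl : ∀ i, l i ≠ 0)
    (hirr : ∃ a b, Irrational (l a / l b)) (hs : k * (k + 1) + 3 ≤ s) {η ε : ℝ} (hη : 0 < η)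
    (hε : 0 < ε) : ∀ᶠ P : ℕ in atTop,
      ∫ α in (Set.Icc (-arcWidth k l P) (arcWidth k l P))ᶜ, gaussK η α * ‖prodSum k P l α‖ ≤
        ε * (P : ℝ) ^ (s - k) := by
  obtain ⟨a, b, hab⟩ := hirr
  obtain ⟨t, ht⟩ : ∃ t, t = halfMoment k := ⟨_, rfl⟩
  have hts : 2 * t + 1 ≤ s := by have := two_mul_halfMoment_le k; omega
  obtain ⟨C₁, hC₁, h₁⟩ := exists_moment_sum_le hk hl hη
  obtain ⟨C₂, hC₂, h₂⟩ := exists_moment_sum_le hk hl (show 0 < η / √2 by positivity)
  rw [← ht] at h₁ h₂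
  obtain ⟨T, hT1, hT⟩ : ∃ T : ℝ, 1 ≤ T ∧ Real.exp (-(π * η ^ 2 / 2) * T ^ 2) * C₂ ≤ ε / 2 := by
    have hlim : Tendsto (fun T : ℝ => Real.exp (-(π * η ^ 2 / 2) * T ^ 2) * C₂) atTop (𝓝 0) := by
      rw [← zero_mul C₂]
      refine (Real.tendsto_exp_atBot.comp ?_).mul_const C₂
      exact (tendsto_pow_atTop two_ne_zero).const_mul_atTop_of_neg
        (neg_lt_zero.2 (by positivity))
    obtain ⟨T, h1, h2⟩ := ((eventually_ge_atTop (1 : ℝ)).and
      (hlim.eventually (eventually_le_nhds (half_pos hε)))).exists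
    exact ⟨T, h1, h2⟩
  obtain ⟨e, he⟩ : ∃ e, e = ε / (2 * C₁) := ⟨_, rfl⟩
  have he0 : 0 < e := he ▸ by positivity
  obtain ⟨C, hpair⟩ := exists_pair_small hk (hl b) hab he0 T
  filter_upwards [hpair, eventually_le_arcWidth k l C, eventually_ge_atTop 1] with P hP hCP hP1
  obtain ⟨δ, hδ⟩ : ∃ δ, δ = arcWidth k l P := ⟨_, rfl⟩
  rw [← hδ] at hCP ⊢
  obtain ⟨G, hG⟩ : ∃ G : ℝ → ℝ, G = fun α => ∑ i, ‖waringSum k P (l i * α)‖ ^ (2 * t) := ⟨_, rfl⟩
  have hG0 : ∀ α, 0 ≤ G α := fun α => hG ▸ sum_nonneg fun i _ => by positivity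
  obtain ⟨g, hg⟩ : ∃ g : ℝ → ℝ, g = fun α => e * (P : ℝ) ^ (s - 2 * t) * (gaussK η α * G α) +
      Real.exp (-(π * η ^ 2 / 2) * T ^ 2) * (P : ℝ) ^ (s - 2 * t) *
        (gaussK (η / √2) α * G α) := ⟨_, rfl⟩
  have hint₁ : Integrable fun α => gaussK η α * G α := hG ▸ integrable_moment hη k P _ l
  have hint₂ : Integrable fun α => gaussK (η / √2) α * G α :=
    hG ▸ integrable_moment (by positivity) k P _ l
  have hgint : Integrable g := hg ▸ (hint₁.const_mul _).add (hint₂.const_mul _)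
  have hg0 : ∀ α, 0 ≤ g α := fun α => by
    have := hG0 α
    have := gaussK_pos η α
    have := gaussK_pos (η / √2) α
    rw [hg]
    positivity
  refine (setIntegral_mono_on ?_ hgint.integrableOn measurableSet_Icc.compl fun α hα => ?_).trans
    ((setIntegral_le_integral hgint (ae_of_all _ hg0)).trans ?_)
  · exact (integrable_kernel_mul_real hη (continuous_prodSum k P l).norm fun α => by
      rw [norm_norm]; exact norm_prodSum_le k P l α).integrableOn
  · have hsub : ∀ (j : Fin s) (c : ℝ), 0 ≤ c → ‖waringSum k P (l j * α)‖ ≤ c * P →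
        ‖prodSum k P l α‖ ≤ c * (P : ℝ) ^ (s - 2 * t) * G α := fun j c hc hjc => by
      rw [prodSum, norm_prod, hG]
      exact prod_le_sum_pow (fun i => ‖waringSum k P (l i * α)‖) (Nat.cast_nonneg P)
        (fun i => norm_nonneg _) (fun i => norm_waringSum_le _ _ _) j hjc hc hts
    have hK := gaussK_pos η α
    have hK2 := gaussK_pos (η / √2) α
    have hGα := hG0 α
    rw [hg]
    dsimp only
    rcases le_or_gt |α| T with hαT | hαT
    · refine le_trans ?_ (le_add_of_nonneg_right (by positivity))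
      have hout : δ < |α| := by
        rw [Set.mem_compl_iff, Set.mem_Icc] at hα
        by_contra hle
        exact hα (abs_le.1 (not_lt.1 hle))
      rw [mul_left_comm]
      refine mul_le_mul_of_nonneg_left ?_ hK.le
      rcases le_or_gt ‖waringSum k P (l a * α)‖ (e * P) with h | h
      · exact hsub a e he0.le h
      · refine hsub b e he0.le ?_
        by_contra hb
        have := hP α hαT h.le (not_le.1 hb).le
        linarith
    · refine le_trans ?_ (le_add_of_nonneg_left (by positivity))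
      have hsplit : gaussK η α ≤ Real.exp (-(π * η ^ 2 / 2) * T ^ 2) * gaussK (η / √2) α := by
        rw [gaussK, gaussK, ← Real.exp_add, Real.exp_le_exp, div_pow, Real.sq_sqrt two_pos.le]
        have h2 : T ^ 2 ≤ α ^ 2 := sq_le_sq.2 (by rw [abs_of_nonneg (by linarith)]; linarith)
        have := mul_le_mul_of_nonneg_left h2 (show 0 ≤ π * η ^ 2 / 2 by positivity)
        linarith
      refine (mul_le_mul hsplit (hsub a 1 zero_le_one (by
        rw [one_mul]; exact norm_waringSum_le _ _ _)) (norm_nonneg _) (by positivity)).trans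
        (le_of_eq (by ring))
  · rw [hg, integral_add (hint₁.const_mul _) (hint₂.const_mul _), integral_const_mul,
      integral_const_mul]
    have h3 := mul_le_mul_of_nonneg_left (h₁ P hP1)
      (show 0 ≤ e * (P : ℝ) ^ (s - 2 * t) by positivity)
    have h4 := mul_le_mul_of_nonneg_left (h₂ P hP1)
      (show 0 ≤ Real.exp (-(π * η ^ 2 / 2) * T ^ 2) * (P : ℝ) ^ (s - 2 * t) by positivity)
    have h5 := exists_pow_sub_le hk hs P
    rw [← ht] at h5
    have h6 := mul_le_mul_of_nonneg_right hT (show 0 ≤ (P : ℝ) ^ (s - k) by positivity)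
    have h7 : e * C₁ = ε / 2 := by rw [he]; field_simp
    simp only [hG] at h3 h4 ⊢
    calc _ ≤ _ := add_le_add h3 h4
      _ = e * C₁ * (P : ℝ) ^ (s - k) +
          Real.exp (-(π * η ^ 2 / 2) * T ^ 2) * C₂ * (P : ℝ) ^ (s - k) := by rw [← h5]; ring
      _ ≤ _ := by rw [h7]; linarith

theorem sq_arcWidth_mul_le (hk : 2 ≤ k) (l : Fin s → ℝ) {P : ℕ} (hP : 1 ≤ P) :
    arcWidth k l P ^ 2 * (P : ℝ) ^ k ≤ (P : ℝ)⁻¹ := by
  have hPr : (1 : ℝ) ≤ P := by exact_mod_cast hP
  have hL : 1 ≤ 1 + ∑ i, |l i| :=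
    le_add_of_nonneg_right (sum_nonneg fun i _ => abs_nonneg _)
  have h1 : arcWidth k l P ≤ (P : ℝ) ^ (1 / 10 : ℝ) / (P : ℝ) ^ k :=
    div_le_self (by positivity) hL
  refine (mul_le_mul_of_nonneg_right (pow_le_pow_left₀ (arcWidth_nonneg k l P) h1 2)
    (by positivity)).trans ?_
  have h2 : ((P : ℝ) ^ (1 / 10 : ℝ)) ^ 2 ≤ P := by
    rw [← Real.rpow_natCast, ← Real.rpow_mul (by linarith)]
    exact Real.rpow_le_self_of_one_le hPr (by norm_num)
  have h3 : (P : ℝ) ^ 2 ≤ (P : ℝ) ^ k := pow_le_pow_right₀ hPr hk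
  rw [div_pow, sq ((P : ℝ) ^ k), ← div_div, div_mul_cancel₀ _ (by positivity), inv_eq_one_div,
    div_le_div_iff₀ (by positivity) (by linarith), one_mul]
  calc ((P : ℝ) ^ (1 / 10 : ℝ)) ^ 2 * P ≤ P * P := mul_le_mul_of_nonneg_right h2 (by linarith)
    _ ≤ _ := by rw [← sq]; exact h3

/-- The difference between the count and the major part, by the two regions. -/
theorem norm_count_sub_major_le (k P : ℕ) (l : Fin s → ℝ) {η : ℝ} (hη : 0 < η) (μ : ℝ) :
    ‖((weightedCount k P l η μ / η : ℝ) : ℂ) - majorIntegral k P l‖ ≤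
      (∫ α in Set.Icc (-arcWidth k l P) (arcWidth k l P),
        ‖(gaussK η α : ℂ) * eAdd (-(μ * α)) - 1‖ * ‖prodSum k P l α‖) +
      ∫ α in (Set.Icc (-arcWidth k l P) (arcWidth k l P))ᶜ, gaussK η α * ‖prodSum k P l α‖ := by
  have hint : Integrable fun α => (gaussK η α : ℂ) * (prodSum k P l α * eAdd (-(μ * α))) :=
    integrable_kernel_mul hη (F := fun α => prodSum k P l α * eAdd (-(μ * α)))
      ((continuous_prodSum k P l).mul
        (continuous_eAdd.comp (continuous_const.mul continuous_id).neg))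
      fun α => by rw [norm_mul, norm_eAdd, mul_one]; exact norm_prodSum_le k P l α
  rw [weightedCount_div_eq k P l hη, ← integral_add_compl measurableSet_Icc hint,
    add_sub_right_comm,
    majorIntegral, ← integral_sub hint.integrableOn (integrableOn_major k P l _)]
  refine (norm_add_le _ _).trans (add_le_add ((norm_integral_le_integral_norm _).trans
    (le_of_eq (integral_congr_ae (ae_of_all _ fun α => ?_))))
    ((norm_integral_le_integral_norm _).trans
    (le_of_eq (integral_congr_ae (ae_of_all _ fun α => ?_)))))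
  · dsimp only
    rw [← norm_mul, sub_mul, one_mul]
    ring_nf
  · dsimp only
    rw [norm_mul, norm_mul, norm_eAdd, mul_one, Complex.norm_real, Real.norm_eq_abs,
      abs_of_pos (gaussK_pos η α)]

/-- **The count is `η J + o (P ^ (s - k))`.** -/
theorem eventually_count_near (hk : 2 ≤ k) {l : Fin s → ℝ} (hl : ∀ i, l i ≠ 0)
    (hirr : ∃ a b, Irrational (l a / l b)) (hs : k * (k + 1) + 3 ≤ s) {η ε : ℝ} (hη : 0 < η)
    (μ : ℝ) (hε : 0 < ε) : ∀ᶠ P : ℕ in atTop,
      ‖((weightedCount k P l η μ / η : ℝ) : ℂ) - majorIntegral k P l‖ ≤ ε * (P : ℝ) ^ (s - k) := by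
  obtain ⟨K, hK⟩ : ∃ K, K = 2 * (π * η ^ 2 + 2 * π * |μ|) := ⟨_, rfl⟩
  filter_upwards [exists_off_zero hk hl hirr hs hη (half_pos hε),
    ((tendsto_inv_atTop_zero.comp (tendsto_natCast_atTop_atTop (R := ℝ))).const_mul K).eventually
      (eventually_le_nhds (show K * 0 < ε / 2 by linarith)),
    (tendsto_rpow_div_natPow hk).eventually (eventually_le_nhds (show (0 : ℝ) < 1 by norm_num)),
    eventually_ge_atTop 1] with P hoff hsmall hone hP
  rw [Function.comp_apply] at hsmall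
  refine (norm_count_sub_major_le k P l hη μ).trans ?_
  obtain ⟨δ, hδ⟩ : ∃ δ, δ = arcWidth k l P := ⟨_, rfl⟩
  rw [← hδ] at hoff ⊢
  have hδ0 : 0 ≤ δ := hδ ▸ arcWidth_nonneg k l P
  have hδ1 : δ ≤ 1 := hδ ▸ (div_le_self (by positivity)
    (le_add_of_nonneg_right (sum_nonneg fun i _ => abs_nonneg _))).trans hone
  have hpt : ∀ α ∈ Set.Icc (-δ) δ,
      ‖(gaussK η α : ℂ) * eAdd (-(μ * α)) - 1‖ * ‖prodSum k P l α‖ ≤
        (π * η ^ 2 + 2 * π * |μ|) * δ * (P : ℝ) ^ s := fun α hα => by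
    have hαδ : |α| ≤ δ := abs_le.2 hα
    refine mul_le_mul ?_ (norm_prodSum_le k P l α) (norm_nonneg _) (by positivity)
    rw [show (gaussK η α : ℂ) * eAdd (-(μ * α)) - 1 =
      ((gaussK η α - 1 : ℝ) : ℂ) * eAdd (-(μ * α)) + (eAdd (-(μ * α)) - 1) by push_cast; ring]
    refine (norm_add_le _ _).trans ?_
    rw [norm_mul, norm_eAdd, mul_one, Complex.norm_real, Real.norm_eq_abs, abs_sub_comm,
      abs_of_nonneg (sub_nonneg.2 (gaussK_le_one η α))]
    have h1 : 1 - gaussK η α ≤ π * η ^ 2 * α ^ 2 := by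
      have := Real.add_one_le_exp (-(π * η ^ 2) * α ^ 2)
      rw [gaussK]
      linarith
    have h2 := norm_eAdd_sub_one_le (-(μ * α))
    rw [abs_neg, abs_mul] at h2
    have h3 : α ^ 2 ≤ δ := by
      rw [← sq_abs]
      exact le_trans (by rw [sq]; exact mul_le_mul hαδ (hαδ.trans hδ1) (abs_nonneg _) hδ0)
        (le_of_eq (mul_one δ))
    have := mul_le_mul_of_nonneg_left h3 (show 0 ≤ π * η ^ 2 by positivity)
    have := mul_le_mul_of_nonneg_left hαδ (show 0 ≤ 2 * π * |μ| by positivity)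
    linarith
  have hmaj : ∫ α in Set.Icc (-δ) δ,
      ‖(gaussK η α : ℂ) * eAdd (-(μ * α)) - 1‖ * ‖prodSum k P l α‖ ≤
        (π * η ^ 2 + 2 * π * |μ|) * δ * (P : ℝ) ^ s * (2 * δ) := by
    refine (setIntegral_mono_on ?_ (integrableOn_const measure_Icc_lt_top.ne) measurableSet_Icc
      hpt).trans (le_of_eq ?_)
    · exact (((Continuous.norm (((Complex.continuous_ofReal.comp (by unfold gaussK; fun_prop)).mul
        (continuous_eAdd.comp (continuous_const.mul continuous_id).neg)).sub continuous_const)).mul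
        (continuous_prodSum k P l).norm)).integrableOn_Icc
    · rw [setIntegral_const, Measure.real, Real.volume_Icc, ENNReal.toReal_ofReal (by linarith),
        smul_eq_mul]
      ring
  have hsk : k ≤ s := (Nat.le_mul_of_pos_right k (show 0 < k + 1 by omega)).trans (by omega)
  have hpow : δ ^ 2 * (P : ℝ) ^ s ≤ (P : ℝ)⁻¹ * (P : ℝ) ^ (s - k) := by
    rw [show (P : ℝ) ^ s = (P : ℝ) ^ k * (P : ℝ) ^ (s - k) by
      rw [← pow_add]; congr 1; omega, ← mul_assoc]
    exact mul_le_mul_of_nonneg_right (hδ ▸ sq_arcWidth_mul_le hk l hP) (by positivity)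
  have h4 := mul_le_mul_of_nonneg_left hpow (show 0 ≤ K by rw [hK]; positivity)
  have h5 := mul_le_mul_of_nonneg_right hsmall (show 0 ≤ (P : ℝ) ^ (s - k) by positivity)
  rw [hK] at h4 h5
  linarith

/-- The tuples with a small value. -/
theorem exists_box_count (hk : 2 ≤ k) {l : Fin s → ℝ} {a b : Fin s} (ha : 0 < l a)
    (hb : l b < 0) : ∃ c₀ κ : ℝ, 0 < c₀ ∧ 0 < κ ∧ ∀ c : ℝ, 0 < c → c ≤ κ → ∀ᶠ P : ℕ in atTop,
      c₀ * c * (P : ℝ) ^ s ≤
        (((box s P).filter fun x => |diagForm k l x| ≤ c * (P : ℝ) ^ k).card : ℝ) := by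
  have hab : a ≠ b := fun h => by rw [h] at ha; linarith
  obtain ⟨v, hv⟩ : ∃ v, v = -l b := ⟨_, rfl⟩
  have hv0 : 0 < v := by linarith
  obtain ⟨Λ, hΛ⟩ : ∃ Λ, Λ = ∑ i, |l i| + 1 := ⟨_, rfl⟩
  have hΛ0 : 0 < Λ := hΛ ▸ add_pos_of_nonneg_of_pos (sum_nonneg fun i _ => abs_nonneg _) one_pos
  obtain ⟨σ, hσ⟩ : ∃ σ, σ = min (1 / 4) (l a / (4 * 8 ^ k * Λ)) := ⟨_, rfl⟩
  have hσ0 : 0 < σ := hσ ▸ lt_min (by norm_num) (by positivity)
  have hσ1 : σ ≤ 1 / 4 := hσ ▸ min_le_left _ _
  have hσa : σ * (4 * 8 ^ k * Λ) ≤ l a := (le_div_iff₀ (by positivity)).1 (hσ ▸ min_le_right _ _)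
  obtain ⟨ρ, hρ⟩ : ∃ ρ, ρ = min σ (v * (σ / 2) ^ k / (4 * Λ)) := ⟨_, rfl⟩
  have hρ0 : 0 < ρ := hρ ▸ lt_min hσ0 (by positivity)
  have hρσ : ρ ≤ σ := hρ ▸ min_le_left _ _
  have hρv : ρ * (4 * Λ) ≤ v * (σ / 2) ^ k :=
    (le_div_iff₀ (by positivity)).1 (hρ ▸ min_le_right _ _)
  obtain ⟨D, hD⟩ : ∃ D : ℝ, D = 2 * (l a * k * 2 ^ k) + 1 := ⟨_, rfl⟩
  have hD0 : 0 < D := hD ▸ by positivity
  refine ⟨(ρ / 4) ^ (s - 1) * (1 / (2 * D)), D / 8, by positivity, by positivity,
    fun c hc hcκ => ?_⟩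
  filter_upwards [(tendsto_natCast_atTop_atTop (R := ℝ)).eventually
    (eventually_ge_atTop (max (max (8 / ρ) (2 * D / c)) (4 * l a / (v * (σ / 2) ^ k) + 8)))]
    with P hP
  simp only [max_le_iff] at hP
  obtain ⟨⟨hPρ, hPc⟩, hPbig⟩ := hP
  have hP8 : (8 : ℝ) ≤ P := by
    have : 0 ≤ 4 * l a / (v * (σ / 2) ^ k) := by positivity
    linarith
  have hP0 : (0 : ℝ) < P := by linarith
  have hPk : (P : ℝ) ≤ (P : ℝ) ^ k := le_self_pow₀ (by linarith) (by omega)
  -- the ranges of the other variables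
  obtain ⟨B, hB⟩ : ∃ B : Fin s → Finset ℕ, B = fun i => if i = a then {1} else if i = b then
      Icc ⌈σ / 2 * (P : ℝ)⌉₊ ⌊σ * (P : ℝ)⌋₊ else Icc 1 ⌊ρ * (P : ℝ)⌋₊ := ⟨_, rfl⟩
  obtain ⟨T₀, hT₀⟩ : ∃ T₀ : (Fin s → ℕ) → ℝ,
      T₀ = fun x => -∑ i ∈ univ.erase a, l i * (x i : ℝ) ^ k := ⟨_, rfl⟩
  obtain ⟨y₀, hy₀⟩ : ∃ y₀ : (Fin s → ℕ) → ℕ,
      y₀ = fun x => ⌊(T₀ x / l a) ^ (1 / (k : ℝ))⌋₊ := ⟨_, rfl⟩
  obtain ⟨m, hm⟩ : ∃ m, m = ⌊c / D * (P : ℝ)⌋₊ := ⟨_, rfl⟩
  have hT : ∀ x ∈ Fintype.piFinset B, l a ≤ T₀ x ∧ T₀ x ≤ l a * ((P : ℝ) / 4) ^ k := by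
    intro x hx
    rw [Fintype.mem_piFinset] at hx
    have hxb := hx b
    simp only [hB, if_neg hab.symm, if_true, mem_Icc] at hxb
    have hxb1 : σ / 2 * P ≤ x b := (Nat.le_ceil _).trans (Nat.cast_le.2 hxb.1)
    have hxb2 : (x b : ℝ) ≤ σ * P := (Nat.cast_le.2 hxb.2).trans (Nat.floor_le (by positivity))
    have hsmall : |∑ i ∈ (univ.erase a).erase b, l i * (x i : ℝ) ^ k| ≤ Λ * (ρ * P) ^ k := by
      refine (abs_sum_le_sum_abs _ _).trans ((sum_le_sum (g := fun i => |l i| * (ρ * P) ^ k)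
        fun i hi => ?_).trans ?_)
      · have hxi := hx i
        simp only [hB, if_neg (ne_of_mem_erase (mem_of_mem_erase hi)), if_neg (ne_of_mem_erase hi),
          mem_Icc] at hxi
        rw [abs_mul, abs_of_nonneg (show (0 : ℝ) ≤ (x i : ℝ) ^ k by positivity)]
        exact mul_le_mul_of_nonneg_left (pow_le_pow_left₀ (Nat.cast_nonneg _)
          ((Nat.cast_le.2 hxi.2).trans (Nat.floor_le (by positivity))) k) (abs_nonneg _)
      · rw [← sum_mul]
        refine mul_le_mul_of_nonneg_right (le_trans (sum_le_sum_of_subset_of_nonneg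
          (t := univ) (subset_univ _) fun i _ _ => abs_nonneg _) ?_) (by positivity)
        linarith
    have hρk : Λ * (ρ * P) ^ k ≤ v * (σ / 2 * P) ^ k / 4 := by
      have h1 : ρ ^ k ≤ ρ := pow_le_of_le_one hρ0.le (by linarith) (by omega)
      rw [mul_pow, mul_pow]
      calc Λ * (ρ ^ k * (P : ℝ) ^ k) ≤ Λ * (ρ * (P : ℝ) ^ k) := by gcongr
        _ = ρ * (4 * Λ) / 4 * (P : ℝ) ^ k := by ring
        _ ≤ v * (σ / 2) ^ k / 4 * (P : ℝ) ^ k := by gcongr
        _ = _ := by ring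
    have h1 := mul_le_mul_of_nonneg_left (pow_le_pow_left₀ (by positivity) hxb1 k) hv0.le
    have h2 := mul_le_mul_of_nonneg_left (pow_le_pow_left₀ (Nat.cast_nonneg _) hxb2 k) hv0.le
    have he : T₀ x = v * (x b : ℝ) ^ k - ∑ i ∈ (univ.erase a).erase b, l i * (x i : ℝ) ^ k := by
      rw [hT₀]
      simp only
      rw [← add_sum_erase _ _ (mem_erase.2 ⟨hab.symm, mem_univ b⟩), hv]
      ring
    rw [abs_le] at hsmall
    constructor
    · have h3 : 4 * l a ≤ P * (v * (σ / 2) ^ k) := by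
        rw [← div_le_iff₀ (by positivity)]
        linarith
      have h4 : v * (σ / 2) ^ k * P ≤ v * (σ / 2 * P) ^ k := by
        rw [mul_pow, ← mul_assoc]
        exact mul_le_mul_of_nonneg_left hPk (by positivity)
      linarith
    · have hσk : σ ^ k ≤ σ := pow_le_of_le_one hσ0.le (by linarith) (by omega)
      have h5 : 2 * Λ * σ ^ k ≤ l a * (1 / 4 : ℝ) ^ k := by
        have h6 : 4 * Λ * σ * 4 ^ k ≤ l a := by
          refine le_trans ?_ hσa
          have : (4 : ℝ) ^ k ≤ 8 ^ k := pow_le_pow_left₀ (by norm_num) (by norm_num) k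
          calc 4 * Λ * σ * 4 ^ k ≤ 4 * Λ * σ * 8 ^ k := by gcongr
            _ = _ := by ring
        rw [one_div, inv_pow, ← div_eq_mul_inv, le_div_iff₀ (by positivity)]
        calc 2 * Λ * σ ^ k * 4 ^ k ≤ 4 * Λ * σ * 4 ^ k := by gcongr; norm_num
          _ ≤ _ := h6
      have h7 : v ≤ Λ := by
        rw [hv, hΛ]
        linarith [neg_le_abs (l b), single_le_sum (fun i _ => abs_nonneg (l i)) (mem_univ b)]
      have h8 : Λ * (ρ * P) ^ k ≤ Λ * (σ * P) ^ k := by gcongr
      have h9 : v * (σ * P) ^ k ≤ Λ * (σ * P) ^ k := by gcongr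
      have h10 := mul_le_mul_of_nonneg_right h5 (show 0 ≤ (P : ℝ) ^ k by positivity)
      have e1 : (σ * P) ^ k = σ ^ k * (P : ℝ) ^ k := mul_pow _ _ _
      have e2 : ((P : ℝ) / 4) ^ k = (1 / 4 : ℝ) ^ k * (P : ℝ) ^ k := by rw [← mul_pow]; ring
      rw [e1] at h2 h8 h9
      rw [e2]
      linarith
  have hm1 : (m : ℝ) + 1 ≤ (P : ℝ) / 4 + 1 ∧ (m : ℝ) ≤ c / D * P ∧ 1 ≤ m := by
    have h1 : (m : ℝ) ≤ c / D * P := hm ▸ Nat.floor_le (by positivity)
    have h2 : c / D * P ≤ 1 / 8 * P := by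
      refine mul_le_mul_of_nonneg_right ?_ hP0.le
      rw [div_le_iff₀ hD0]
      linarith
    refine ⟨by linarith, h1, hm ▸ Nat.le_floor ?_⟩
    push_cast
    rw [div_le_iff₀ hc] at hPc
    rw [div_mul_eq_mul_div, le_div_iff₀ hD0]
    linarith
  have hy : ∀ x ∈ Fintype.piFinset B, 1 ≤ y₀ x ∧ (y₀ x : ℝ) ^ k ≤ T₀ x / l a ∧
      T₀ x / l a ≤ ((y₀ x : ℝ) + 1) ^ k ∧ (y₀ x : ℝ) + m + 1 ≤ P := by
    intro x hx
    obtain ⟨hT1, hT2⟩ := hT x hx
    obtain ⟨w, hw⟩ : ∃ w, w = T₀ x / l a := ⟨_, rfl⟩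
    have hw1 : 1 ≤ w := hw ▸ (one_le_div ha).2 hT1
    have hw2 : w ≤ ((P : ℝ) / 4) ^ k := by
      rw [hw, div_le_iff₀ ha]
      linarith
    have hroot : (w ^ (1 / (k : ℝ))) ^ k = w := by
      rw [← Real.rpow_natCast, ← Real.rpow_mul (by linarith), one_div_mul_cancel
        (Nat.cast_ne_zero.2 (by omega)), Real.rpow_one]
    have hup : w ^ (1 / (k : ℝ)) ≤ (P : ℝ) / 4 :=
      le_of_pow_le_pow_left₀ (by omega) (by positivity) (hroot.trans_le hw2)
    have hfl := Nat.floor_le (show 0 ≤ w ^ (1 / (k : ℝ)) by positivity)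
    have hlt := (Nat.lt_floor_add_one (w ^ (1 / (k : ℝ)))).le
    simp only [hy₀, ← hw]
    refine ⟨Nat.le_floor (by push_cast; exact Real.one_le_rpow hw1 (by positivity)),
      (pow_le_pow_left₀ (Nat.cast_nonneg _) hfl k).trans_eq hroot,
      hroot.symm.le.trans (pow_le_pow_left₀ (by positivity) hlt k), ?_⟩
    have := hm1.1
    linarith
  obtain ⟨S, hS⟩ : ∃ S, S = Fintype.piFinset B ×ˢ range m := ⟨_, rfl⟩
  have hcount : S.card ≤ ((box s P).filter fun x => |diagForm k l x| ≤ c * (P : ℝ) ^ k).card := by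
    refine card_le_card_of_injOn (fun z => Function.update z.1 a (y₀ z.1 + z.2)) (fun z hz => ?_)
      fun z hz z' hz' e => ?_
    · rw [mem_coe, hS, mem_product, mem_range] at hz
      obtain ⟨hy1, hy2, hy3, hy4⟩ := hy z.1 hz.1
      have hzB := Fintype.mem_piFinset.1 hz.1
      rw [mem_coe, mem_filter, box, Fintype.mem_piFinset]
      have hzm : (z.2 : ℝ) + 1 ≤ m := by exact_mod_cast hz.2
      refine ⟨fun i => ?_, ?_⟩
      · rw [mem_Icc]
        dsimp only
        rcases eq_or_ne i a with rfl | hi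
        · rw [Function.update_self]
          refine ⟨le_add_right hy1, ?_⟩
          rw [← Nat.cast_le (α := ℝ)]
          push_cast
          linarith
        · rw [Function.update_of_ne hi]
          have h := hzB i
          simp only [hB, if_neg hi] at h
          have hfl : ∀ w : ℝ, 0 ≤ w → w ≤ 1 → ⌊w * (P : ℝ)⌋₊ ≤ P := fun w hw hw1 =>
            (Nat.floor_le_floor (mul_le_of_le_one_left hP0.le hw1)).trans (Nat.floor_natCast P).le
          split_ifs at h
          · rw [mem_Icc] at h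
            exact ⟨le_trans (Nat.ceil_pos.2 (by positivity)) h.1,
              h.2.trans (hfl σ hσ0.le (by linarith))⟩
          · rw [mem_Icc] at h
            exact ⟨h.1, h.2.trans (hfl ρ hρ0.le (by linarith))⟩
      · dsimp only
        rw [diagForm, ← add_sum_erase univ _ (mem_univ a), Function.update_self,
          sum_congr rfl fun i hi => by rw [Function.update_of_ne (ne_of_mem_erase hi)]]
        have hTe : ∑ i ∈ univ.erase a, l i * (z.1 i : ℝ) ^ k = -T₀ z.1 := by rw [hT₀]; simp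
        rw [hTe, ← sub_eq_add_neg]
        obtain ⟨y, hy'⟩ : ∃ y : ℕ, y = y₀ z.1 := ⟨_, rfl⟩
        rw [← hy'] at hy1 hy2 hy3 hy4 ⊢
        obtain ⟨w, hw⟩ : ∃ w, w = T₀ z.1 / l a := ⟨_, rfl⟩
        rw [← hw] at hy2 hy3
        rw [show T₀ z.1 = l a * w by rw [hw]; field_simp, ← mul_sub, abs_mul, abs_of_pos ha]
        push_cast
        have hgap : ∀ p q : ℝ, (y : ℝ) ≤ p → p ≤ q → q ≤ y + m → q ^ k - p ^ k ≤
            (k : ℝ) * (2 * (P : ℝ)) ^ (k - 1) * m := by
          intro p q hp hpq hq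
          have hy0 : (0 : ℝ) ≤ y := Nat.cast_nonneg y
          refine (le_abs_self _).trans ((abs_pow_sub_pow_le q p k).trans ?_)
          rw [abs_of_nonneg (show 0 ≤ q - p by linarith), mul_comm (q - p), mul_right_comm]
          have hmax : max |q| |p| ≤ 2 * (P : ℝ) := by
            rw [abs_of_nonneg (by linarith), abs_of_nonneg (by linarith), max_le_iff]
            constructor <;> linarith
          exact mul_le_mul (mul_le_mul_of_nonneg_left (pow_le_pow_left₀ (by positivity) hmax _)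
            (Nat.cast_nonneg k)) (by linarith) (by linarith) (by positivity)
        have hm0 : (1 : ℝ) ≤ m := by exact_mod_cast hm1.2.2
        have hz0 : (0 : ℝ) ≤ z.2 := Nat.cast_nonneg _
        have g1 := hgap y ((y : ℝ) + z.2) le_rfl (by linarith) (by linarith)
        have g2 := hgap y ((y : ℝ) + 1) le_rfl (by linarith) (by linarith)
        have hzy : (y : ℝ) ^ k ≤ ((y : ℝ) + z.2) ^ k :=
          pow_le_pow_left₀ (Nat.cast_nonneg _) (by linarith) k
        have habs : |((y : ℝ) + z.2) ^ k - w| ≤ 2 * ((k : ℝ) * (2 * (P : ℝ)) ^ (k - 1) * m) := by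
          rw [abs_le]
          constructor <;> linarith
        refine (mul_le_mul_of_nonneg_left habs ha.le).trans ?_
        have hpk : (2 * (P : ℝ)) ^ (k - 1) * P ≤ 2 ^ k * (P : ℝ) ^ k := by
          rw [mul_pow, mul_assoc, ← pow_succ, show k - 1 + 1 = k by omega]
          exact mul_le_mul_of_nonneg_right (pow_le_pow_right₀ one_le_two (by omega)) (by positivity)
        calc l a * (2 * ((k : ℝ) * (2 * (P : ℝ)) ^ (k - 1) * m))
            ≤ l a * (2 * ((k : ℝ) * (2 * (P : ℝ)) ^ (k - 1) * (c / D * P))) := by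
              gcongr
              exact hm1.2.1
          _ = 2 * (l a * k) * (c / D) * ((2 * (P : ℝ)) ^ (k - 1) * P) := by ring
          _ ≤ 2 * (l a * k) * (c / D) * (2 ^ k * (P : ℝ) ^ k) := by gcongr
          _ = 2 * (l a * k * 2 ^ k) / D * (c * (P : ℝ) ^ k) := by ring
          _ ≤ c * (P : ℝ) ^ k := by
              refine mul_le_of_le_one_left (by positivity) ?_
              rw [div_le_one hD0, hD]
              linarith
    · rw [mem_coe, hS, mem_product] at hz hz'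
      have h0 : z.1 a = z'.1 a := by
        have h1 := Fintype.mem_piFinset.1 hz.1 a
        have h2 := Fintype.mem_piFinset.1 hz'.1 a
        simp only [hB, if_true, mem_singleton] at h1 h2
        rw [h1, h2]
      have h3 : z.1 = z'.1 := by
        funext i
        rcases eq_or_ne i a with rfl | hi
        · exact h0
        · have := congrFun e i
          simpa [Function.update_of_ne hi] using this
      refine Prod.ext h3 ?_
      have := congrFun e a
      simp only [Function.update_self, h3] at this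
      omega
  refine le_trans ?_ (Nat.cast_le.2 hcount)
  rw [hS, card_product, card_range, Fintype.card_piFinset, Nat.cast_mul, Nat.cast_prod,
    ← mul_prod_erase univ _ (mem_univ a)]
  have hρP : 8 ≤ ρ * P := by
    rw [div_le_iff₀ hρ0] at hPρ
    linarith
  have hlow : (ρ / 4 * P) ^ (s - 1) ≤ ∏ i ∈ univ.erase a, ((B i).card : ℝ) := by
    rw [show (ρ / 4 * (P : ℝ)) ^ (s - 1) = ∏ _i ∈ univ.erase a, ρ / 4 * (P : ℝ) by
      rw [prod_const, card_erase_of_mem (mem_univ a), card_univ, Fintype.card_fin]]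
    refine prod_le_prod (fun i _ => by positivity) fun i hi => ?_
    simp only [hB, if_neg (ne_of_mem_erase hi)]
    split_ifs
    · have h1 := (Nat.ceil_lt_add_one (show 0 ≤ σ / 2 * (P : ℝ) by positivity)).le
      have h2 := (Nat.lt_floor_add_one (σ * (P : ℝ))).le
      have hσP : ρ * P ≤ σ * P := mul_le_mul_of_nonneg_right hρσ hP0.le
      have hle : ⌈σ / 2 * (P : ℝ)⌉₊ ≤ ⌊σ * (P : ℝ)⌋₊ + 1 := by
        rw [← Nat.cast_le (α := ℝ)]
        push_cast
        linarith
      rw [Nat.card_Icc, Nat.cast_sub hle]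
      push_cast
      linarith
    · have h2 := (Nat.lt_floor_add_one (ρ * (P : ℝ))).le
      rw [Nat.card_Icc, Nat.add_sub_cancel]
      linarith
  have hml : c / D * P ≤ 2 * m := by
    have h1 : c / D * P < m + 1 := hm ▸ Nat.lt_floor_add_one _
    have h2 : (1 : ℝ) ≤ m := by exact_mod_cast hm1.2.2
    linarith
  calc (ρ / 4) ^ (s - 1) * (1 / (2 * D)) * c * (P : ℝ) ^ s
      = (ρ / 4 * P) ^ (s - 1) * (c / D * P / 2) := by
        rw [mul_pow]
        rw [show (P : ℝ) ^ s = (P : ℝ) ^ (s - 1) * P by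
          rw [← pow_succ]; congr 1; have := a.pos; omega]
        ring
    _ ≤ (∏ i ∈ univ.erase a, ((B i).card : ℝ)) * m := by
        refine mul_le_mul hlow (by linarith) (by positivity) (prod_nonneg fun i _ => ?_)
        exact Nat.cast_nonneg _
    _ = _ := by simp [hB]

/-- **The major part is large.** -/
theorem exists_major_ge (hk : 2 ≤ k) {l : Fin s → ℝ} (hl : ∀ i, l i ≠ 0)
    (hirr : ∃ a b, Irrational (l a / l b)) (hs : k * (k + 1) + 3 ≤ s)
    (hsign : ∃ a b, 0 < l a ∧ l b < 0) : ∃ c : ℝ, 0 < c ∧ ∀ᶠ P : ℕ in atTop,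
      c * (P : ℝ) ^ (s - k) ≤ (majorIntegral k P l).re := by
  obtain ⟨a, b, ha, hb⟩ := hsign
  obtain ⟨c₀, κ, hc₀, hκ, hcount⟩ := exists_box_count hk ha hb
  obtain ⟨C, hC, hdecay⟩ := exists_decay hk
  have hk0 : (0 : ℝ) < k := by exact_mod_cast (show 0 < k by omega)
  obtain ⟨E, hE⟩ : ∃ E : ℝ, E = C * (1 + ∑ i, |l i| ^ (-(1 / (k : ℝ)))) := ⟨_, rfl⟩
  obtain ⟨V, hV⟩ : ∃ V : ℝ, V = 1 + ∑ i, |l i|⁻¹ := ⟨_, rfl⟩
  obtain ⟨g, hg⟩ : ∃ g, g = c₀ * Real.exp (-π) := ⟨_, rfl⟩
  have hg0 : 0 < g := hg ▸ by positivity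
  have hE0 : 0 ≤ E := hE ▸ mul_nonneg (by linarith)
    (add_nonneg zero_le_one (sum_nonneg fun i _ => by positivity))
  obtain ⟨A, hA⟩ : ∃ A, A = V + 16 * E ^ s * π / g := ⟨_, rfl⟩
  have hV1 : 1 ≤ V := hV ▸ le_add_of_nonneg_right (sum_nonneg fun i _ => by positivity)
  have hA1 : 1 ≤ A := by
    have : 0 ≤ 16 * E ^ s * π / g := by positivity
    rw [hA]; linarith
  obtain ⟨c, hc0, hcκ, hcA⟩ : ∃ c : ℝ, 0 < c ∧ c ≤ κ ∧
      π * c ^ 2 * A ^ 2 * (1 + A ^ 2) * π ≤ g / 4 := by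
    have hlim : Tendsto (fun c : ℝ => π * c ^ 2 * A ^ 2 * (1 + A ^ 2) * π) (𝓝[>] 0) (𝓝 0) := by
      refine tendsto_nhdsWithin_of_tendsto_nhds ?_
      exact Continuous.tendsto' (by fun_prop) 0 0 (by simp)
    obtain ⟨c, ⟨h1, h2⟩, h3⟩ := ((eventually_nhdsWithin_of_forall
      fun c (hc : c ∈ Set.Ioi (0 : ℝ)) => hc).and
        (eventually_nhdsWithin_of_eventually_nhds (eventually_le_nhds hκ))).and
      (hlim.eventually (eventually_le_nhds (show 0 < g / 4 by positivity))) |>.exists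
    exact ⟨c, h1, h2, h3⟩
  refine ⟨g / 4, by positivity, ?_⟩
  filter_upwards [hcount c hc0 hcκ, hdecay,
    exists_off_zero hk hl ⟨_, _, hirr.choose_spec.choose_spec⟩ hs one_pos
      (show 0 < g / 4 by positivity),
    (tendsto_natCast_atTop_atTop (R := ℝ)).eventually (eventually_ge_atTop (max 1 (1 / c)))]
    with P hPc hPd hoff hPbig
  rw [max_le_iff] at hPbig
  have hP0 : (0 : ℝ) < P := by linarith
  obtain ⟨N, hN⟩ : ∃ N : ℝ, N = (P : ℝ) ^ k := ⟨_, rfl⟩
  have hN0 : 0 < N := hN ▸ pow_pos hP0 k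
  have hη : 1 ≤ c * N := by
    have h1 := le_self_pow₀ hPbig.1 (show k ≠ 0 by omega)
    have h2 := (div_le_iff₀ hc0).1 hPbig.2
    have h3 := mul_le_mul_of_nonneg_left (hN ▸ h1) hc0.le
    linarith
  have hsk : k ≤ s := (Nat.le_mul_of_pos_right k (show 0 < k + 1 by omega)).trans (by omega)
  have hs3 : 3 * k ≤ s := by
    have := three_mul_le_of_lt hk (show k * (k + 1) < s by omega)
    exact this
  have hlow : g * (P : ℝ) ^ (s - k) ≤ weightedCount k P l (c * N) 0 / (c * N) := by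
    rw [le_div_iff₀ (by linarith), weightedCount]
    simp only [sub_zero]
    refine le_trans ?_ (sum_le_sum_of_subset_of_nonneg (filter_subset
      (fun x => |diagForm k l x| ≤ c * (P : ℝ) ^ k) (box s P)) fun i _ _ => (gaussW_pos _ _).le)
    refine le_trans ?_ (card_nsmul_le_sum _ _ (Real.exp (-π)) fun x hx => ?_)
    · rw [nsmul_eq_mul, hg]
      refine le_trans (le_of_eq ?_) (mul_le_mul_of_nonneg_right hPc (Real.exp_pos _).le)
      rw [hN, show (P : ℝ) ^ s = (P : ℝ) ^ (s - k) * (P : ℝ) ^ k by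
        rw [← pow_add, Nat.sub_add_cancel hsk]]
      ring
    · have hx' : |diagForm k l x| ≤ c * N := hN ▸ (mem_filter.1 hx).2
      rw [gaussW, Real.exp_le_exp, mul_div_assoc, neg_mul]
      refine neg_le_neg (mul_le_of_le_one_right Real.pi_pos.le ?_)
      rw [div_le_one (by positivity)]
      exact sq_le_sq.2 (by rwa [abs_of_pos (show 0 < c * N by linarith)])
  obtain ⟨δ, hδ⟩ : ∃ δ, δ = arcWidth k l P := ⟨_, rfl⟩
  obtain ⟨K, hK⟩ : ∃ K, K = π * c ^ 2 * A ^ 2 * (1 + A ^ 2) + 2 * E ^ s / A := ⟨_, rfl⟩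
  have hpt : ∀ α ∈ Set.Icc (-δ) δ,
      ‖(gaussK (c * N) α : ℂ) * eAdd (-(0 * α)) - 1‖ * ‖prodSum k P l α‖ ≤
        K * (P : ℝ) ^ s * (1 + (N * α) ^ 2)⁻¹ := fun α hα => by
    have hαδ : |α| ≤ δ := abs_le.2 hα
    rw [zero_mul, neg_zero, eAdd_zero, mul_one, ← Complex.ofReal_one, ← Complex.ofReal_sub,
      Complex.norm_real, Real.norm_eq_abs, abs_sub_comm,
      abs_of_nonneg (sub_nonneg.2 (gaussK_le_one _ α))]
    rw [← sq_abs (N * α), abs_mul, abs_of_pos hN0]
    obtain ⟨y, hy⟩ : ∃ y, y = N * |α| := ⟨_, rfl⟩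
    rw [← hy]
    have hy0 : 0 ≤ y := hy ▸ by positivity
    rw [← div_eq_mul_inv, le_div_iff₀ (by positivity)]
    rcases le_or_gt y A with hyA | hyA
    · have h1 : 1 - gaussK (c * N) α ≤ π * c ^ 2 * A ^ 2 := by
        have h2 := Real.add_one_le_exp (-(π * (c * N) ^ 2) * α ^ 2)
        have h3 : π * (c * N) ^ 2 * α ^ 2 ≤ π * c ^ 2 * A ^ 2 := by
          have := pow_le_pow_left₀ hy0 hyA 2
          rw [hy, mul_pow, sq_abs] at this
          calc π * (c * N) ^ 2 * α ^ 2 = π * c ^ 2 * (N ^ 2 * α ^ 2) := by ring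
            _ ≤ _ := mul_le_mul_of_nonneg_left this (by positivity)
        rw [gaussK]
        linarith
      calc (1 - gaussK (c * N) α) * ‖prodSum k P l α‖ * (1 + y ^ 2)
          ≤ π * c ^ 2 * A ^ 2 * (P : ℝ) ^ s * (1 + A ^ 2) := by
            refine mul_le_mul (mul_le_mul h1 (norm_prodSum_le k P l α) (norm_nonneg _)
              (by positivity)) (by gcongr) (by positivity) (by positivity)
        _ ≤ _ := by
            rw [hK]
            have : 0 ≤ 2 * E ^ s / A * (P : ℝ) ^ s := by positivity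
            linarith
    · have hy1 : 1 ≤ y := by linarith
      have hfac : ∀ i, ‖waringSum k P (l i * α)‖ ≤ E * (P * y ^ (-(1 / (k : ℝ)))) := fun i => by
        have hli : 0 < |l i| := abs_pos.2 (hl i)
        have hVi : |l i|⁻¹ ≤ A := by
          have := single_le_sum (fun j _ => inv_nonneg.2 (abs_nonneg (l j))) (mem_univ i)
          have h0 : (0 : ℝ) ≤ 16 * E ^ s * π / g := by positivity
          rw [hA, hV]
          linarith
        have h1 : |l i * α| ≤ (P : ℝ) ^ (1 / 10 : ℝ) / (P : ℝ) ^ k := by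
          have hL : |l i| ≤ 1 + ∑ j, |l j| := by
            linarith [single_le_sum (fun j _ => abs_nonneg (l j)) (mem_univ i)]
          have hLpos : 0 < 1 + ∑ j, |l j| := hli.trans_le hL
          rw [abs_mul]
          refine (mul_le_mul hL hαδ (abs_nonneg _) hLpos.le).trans (le_of_eq ?_)
          rw [hδ, arcWidth, mul_div_cancel₀ _ hLpos.ne']
        have e : |l i * α| * (P : ℝ) ^ k = |l i| * y := by
          rw [hy, abs_mul, hN]; ring
        have h2 : 1 ≤ |l i * α| * (P : ℝ) ^ k := by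
          rw [e]
          have := mul_le_mul_of_nonneg_left (hVi.trans hyA.le) hli.le
          rwa [mul_inv_cancel₀ hli.ne'] at this
        have h3 := hPd (l i * α) h1 h2
        rw [e, Real.mul_rpow hli.le hy0] at h3
        refine h3.trans ?_
        have h4 : |l i| ^ (-(1 / (k : ℝ))) ≤ 1 + ∑ j, |l j| ^ (-(1 / (k : ℝ))) := by
          linarith [single_le_sum (f := fun j => |l j| ^ (-(1 / (k : ℝ))))
            (fun j _ => by positivity) (mem_univ i)]
        rw [hE]
        calc C * P * (|l i| ^ (-(1 / (k : ℝ))) * y ^ (-(1 / (k : ℝ))))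
            = C * |l i| ^ (-(1 / (k : ℝ))) * (P * y ^ (-(1 / (k : ℝ)))) := by ring
          _ ≤ _ := by gcongr
      have hprod : ‖prodSum k P l α‖ ≤ E ^ s * (P : ℝ) ^ s / y ^ 3 := by
        rw [prodSum, norm_prod]
        refine (prod_le_prod (fun i _ => norm_nonneg _) fun i _ => hfac i).trans ?_
        rw [prod_const, card_univ, Fintype.card_fin, mul_pow, mul_pow, ← mul_assoc,
          div_eq_mul_inv]
        refine mul_le_mul_of_nonneg_left ?_ (by positivity)
        rw [← Real.rpow_natCast, ← Real.rpow_mul hy0, ← Real.rpow_natCast y 3,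
          ← Real.rpow_neg hy0]
        refine Real.rpow_le_rpow_of_exponent_le hy1 ?_
        have : (3 : ℝ) ≤ 1 / (k : ℝ) * s := by
          rw [one_div_mul_eq_div, le_div_iff₀ hk0]
          exact_mod_cast hs3
        rw [neg_mul, neg_le_neg_iff]
        exact le_trans (by norm_num) this
      calc (1 - gaussK (c * N) α) * ‖prodSum k P l α‖ * (1 + y ^ 2)
          ≤ 1 * (E ^ s * (P : ℝ) ^ s / y ^ 3) * (2 * y ^ 2) := by
            refine mul_le_mul (mul_le_mul (sub_le_self _ (gaussK_pos _ _).le) hprod (norm_nonneg _)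
              zero_le_one) ?_ (by positivity) (by positivity)
            have := one_le_pow₀ (n := 2) hy1
            linarith
        _ = 2 * E ^ s / y * (P : ℝ) ^ s := by field_simp
        _ ≤ 2 * E ^ s / A * (P : ℝ) ^ s := by gcongr
        _ ≤ _ := by
            rw [hK]
            have : 0 ≤ π * c ^ 2 * A ^ 2 * (1 + A ^ 2) * (P : ℝ) ^ s := by positivity
            linarith
  have hK0 : 0 ≤ K := hK ▸ by positivity
  have hIint : Integrable fun α : ℝ => K * (P : ℝ) ^ s * (1 + (N * α) ^ 2)⁻¹ :=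
    (integrable_inv_one_add_sq.comp_mul_left' hN0.ne').const_mul _
  have hmaj : ∫ α in Set.Icc (-δ) δ,
      ‖(gaussK (c * N) α : ℂ) * eAdd (-(0 * α)) - 1‖ * ‖prodSum k P l α‖ ≤
        K * π * (P : ℝ) ^ (s - k) := by
    refine (setIntegral_mono_on ?_ hIint.integrableOn measurableSet_Icc hpt).trans
      ((setIntegral_le_integral hIint (ae_of_all _ fun α => ?_)).trans (le_of_eq ?_))
    · exact (((Continuous.norm (((Complex.continuous_ofReal.comp (by unfold gaussK; fun_prop)).mul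
        (continuous_eAdd.comp (continuous_const.mul continuous_id).neg)).sub continuous_const)).mul
        (continuous_prodSum k P l).norm)).integrableOn_Icc
    · positivity
    · rw [integral_const_mul, Measure.integral_comp_mul_left (fun x : ℝ => (1 + x ^ 2)⁻¹) N,
        integral_univ_inv_one_add_sq, smul_eq_mul, abs_of_pos (inv_pos.2 hN0), hN,
        show (P : ℝ) ^ s = (P : ℝ) ^ (s - k) * (P : ℝ) ^ k by
          rw [← pow_add, Nat.sub_add_cancel hsk]]
      field_simp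
  have hoff' : ∫ α in (Set.Icc (-δ) δ)ᶜ, gaussK (c * N) α * ‖prodSum k P l α‖ ≤
      g / 4 * (P : ℝ) ^ (s - k) := by
    refine le_trans (setIntegral_mono ?_ ?_ fun α => ?_) (hδ ▸ hoff)
    · exact (integrable_kernel_mul_real (by linarith) (continuous_prodSum k P l).norm fun α => by
        rw [norm_norm]; exact norm_prodSum_le k P l α).integrableOn
    · exact (integrable_kernel_mul_real one_pos (continuous_prodSum k P l).norm fun α => by
        rw [norm_norm]; exact norm_prodSum_le k P l α).integrableOn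
    · refine mul_le_mul_of_nonneg_right (Real.exp_le_exp.2 ?_) (norm_nonneg _)
      have h1 : (1 : ℝ) ^ 2 ≤ (c * N) ^ 2 := pow_le_pow_left₀ zero_le_one hη 2
      have h2 := mul_le_mul_of_nonneg_left h1 (show 0 ≤ π * α ^ 2 by positivity)
      linarith
  have hKg : K * π ≤ g / 2 := by
    rw [hK, add_mul]
    have h1 : 2 * E ^ s / A * π ≤ g / 8 := by
      rw [div_mul_eq_mul_div, div_le_iff₀ (by linarith)]
      have : 16 * E ^ s * π / g ≤ A := by linarith
      rw [div_le_iff₀ hg0] at this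
      linarith
    linarith
  have h1 := (abs_le.1 ((Complex.abs_re_le_norm _).trans
    ((norm_count_sub_major_le k P l (show 0 < c * N by linarith) 0).trans
      (add_le_add (hδ ▸ hmaj) (hδ ▸ hoff'))))).2
  rw [Complex.sub_re, Complex.ofReal_re] at h1
  have h2 := mul_le_mul_of_nonneg_right hKg (show 0 ≤ (P : ℝ) ^ (s - k) by positivity)
  linarith

/-- **The theorem of Davenport and Heilbronn.** -/
theorem exists_count_ge (hk : 2 ≤ k) {l : Fin s → ℝ} (hl : ∀ i, l i ≠ 0)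
    (hirr : ∃ a b, Irrational (l a / l b)) (hs : k * (k + 1) + 3 ≤ s)
    (hsign : ∃ a b, 0 < l a ∧ l b < 0) (μ : ℝ) {η : ℝ} (hη : 0 < η) : ∃ c : ℝ, 0 < c ∧
      ∀ᶠ P : ℕ in atTop, c * (P : ℝ) ^ (s - k) ≤
        (((box s P).filter fun x => |diagForm k l x - μ| < η).card : ℝ) := by
  obtain ⟨c, hc, hmaj⟩ := exists_major_ge hk hl hirr hs hsign
  obtain ⟨C, hC, habs⟩ := exists_absolute_le hk hl hs one_pos
  obtain ⟨w, hw0, hw1, hw⟩ : ∃ w : ℝ, 0 < w ∧ w ^ 2 ≤ 1 / 2 ∧
      Real.exp (-π * (η ^ 2 / (2 * w ^ 2))) * C ≤ c * w / 4 := by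
    obtain ⟨w, hw0, hw1, hwc⟩ : ∃ w : ℝ, 0 < w ∧ w ≤ 1 / 2 ∧ w ≤ π * η ^ 2 * c / (8 * C) :=
      ⟨min (1 / 2) (π * η ^ 2 * c / (8 * C)), lt_min (by norm_num) (by positivity),
        min_le_left _ _, min_le_right _ _⟩
    refine ⟨w, hw0, (pow_le_pow_left₀ hw0.le hw1 2).trans (by norm_num), ?_⟩
    rw [neg_mul, Real.exp_neg, inv_mul_eq_div, div_le_iff₀ (Real.exp_pos _)]
    have h1 := mul_le_mul_of_nonneg_left (Real.add_one_le_exp (π * (η ^ 2 / (2 * w ^ 2))))
      (show 0 ≤ c * w / 4 by positivity)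
    have h2 : C ≤ c * w / 4 * (π * (η ^ 2 / (2 * w ^ 2))) := by
      rw [show c * w / 4 * (π * (η ^ 2 / (2 * w ^ 2))) = π * η ^ 2 * c / 8 / w by
        field_simp; ring, le_div_iff₀ hw0]
      rw [le_div_iff₀ (by positivity)] at hwc
      linarith
    have h3 : 0 ≤ c * w / 4 := by positivity
    linarith
  refine ⟨c * w / 4, by positivity, ?_⟩
  filter_upwards [hmaj, eventually_count_near hk hl hirr hs hw0 μ (show 0 < c / 2 by positivity),
    eventually_ge_atTop 1] with P hP hnear hP1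
  obtain ⟨Y, hY⟩ : ∃ Y : ℝ, Y = (P : ℝ) ^ (s - k) := ⟨_, rfl⟩
  rw [← hY] at hP hnear ⊢
  have h1 := (abs_le.1 ((Complex.abs_re_le_norm _).trans hnear)).1
  rw [Complex.sub_re, Complex.ofReal_re] at h1
  have h2 : c / 2 * Y * w ≤ weightedCount k P l w μ := by
    rw [← le_div_iff₀ hw0]
    linarith
  have h3 : weightedCount k P l 1 μ ≤ C * Y := by
    have h := weightedCount_div_eq k P l one_pos μ
    rw [div_one] at h
    have h' := congrArg norm h
    rw [Complex.norm_real, Real.norm_eq_abs] at h'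
    refine (le_abs_self _).trans (h'.le.trans ((norm_integral_le_integral_norm _).trans
      (le_of_eq_of_le (integral_congr_ae (ae_of_all _ fun α => ?_)) (hY ▸ habs P hP1))))
    dsimp only
    rw [norm_mul, norm_mul, norm_eAdd, mul_one, Complex.norm_real, Real.norm_eq_abs,
      abs_of_pos (gaussK_pos 1 α)]
  rw [weightedCount, ← sum_filter_add_sum_filter_not (box s P)
    (fun x => |diagForm k l x - μ| < η)] at h2
  have h4 : ∑ x ∈ (box s P).filter (fun x => |diagForm k l x - μ| < η),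
      gaussW w (diagForm k l x - μ) ≤
        (((box s P).filter fun x => |diagForm k l x - μ| < η).card : ℝ) := by
    refine (sum_le_card_nsmul _ _ 1 fun x _ => Real.exp_le_one_iff.2 ?_).trans (le_of_eq (by simp))
    exact div_nonpos_of_nonpos_of_nonneg
      (mul_nonpos_of_nonpos_of_nonneg (neg_nonpos.2 Real.pi_pos.le) (sq_nonneg _)) (sq_nonneg _)
  have h5 : ∑ x ∈ (box s P).filter (fun x => ¬|diagForm k l x - μ| < η),
      gaussW w (diagForm k l x - μ) ≤
        Real.exp (-π * (η ^ 2 / (2 * w ^ 2))) * weightedCount k P l 1 μ := by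
    rw [weightedCount, mul_sum]
    refine (sum_le_sum (g := fun x => Real.exp (-π * (η ^ 2 / (2 * w ^ 2))) *
      gaussW 1 (diagForm k l x - μ)) fun x hx => ?_).trans (sum_le_sum_of_subset_of_nonneg
        (filter_subset _ _) fun x _ _ => mul_nonneg (Real.exp_pos _).le (gaussW_pos _ _).le)
    obtain ⟨u, hu⟩ : ∃ u, u = diagForm k l x - μ := ⟨_, rfl⟩
    have hx' := (mem_filter.1 hx).2
    rw [← hu, not_lt] at hx'
    rw [← hu, gaussW, gaussW, ← Real.exp_add, Real.exp_le_exp, one_pow, div_one]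
    have hη2 : η ^ 2 ≤ u ^ 2 := sq_le_sq.2 (by rwa [abs_of_pos hη])
    have hA : η ^ 2 / (2 * w ^ 2) ≤ u ^ 2 / (2 * w ^ 2) :=
      div_le_div_of_nonneg_right hη2 (by positivity)
    have hB : u ^ 2 ≤ u ^ 2 / (2 * w ^ 2) := by
      rw [le_div_iff₀ (by positivity)]
      exact mul_le_of_le_one_right (sq_nonneg u) (by linarith)
    have e : -π * u ^ 2 / w ^ 2 = -π * (u ^ 2 / (2 * w ^ 2)) + -π * (u ^ 2 / (2 * w ^ 2)) := by
      field_simp
      ring
    rw [e]
    have := mul_le_mul_of_nonneg_left hA Real.pi_pos.le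
    have := mul_le_mul_of_nonneg_left hB Real.pi_pos.le
    linarith
  have h6 := mul_le_mul_of_nonneg_left h3 (Real.exp_pos (-π * (η ^ 2 / (2 * w ^ 2)))).le
  have h7 := mul_le_mul_of_nonneg_right hw (show 0 ≤ Y by rw [hY]; positivity)
  linarith

end FA.DiophantineInequality
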